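/-
S14A (shared analytic sub-team of the S14 efforts; sub-captain helper4).
THE definitions of the partial zeta function of an ideal class and of the `L`-series of a class
group character (real exponent), shared by [An2] (boundedness), (Z)/(E) (Euler products) and
[An3].  Nothing else lives here; the file only imports Mathlib.
-/
import Mathlib

set_option autoImplicit false

namespace Fermat.Agent.S14A

open NumberField nonZeroDivisors

variable (K : Type*) [Field K] [NumberField K]

/-- Partial zeta function of an ideal class (real exponent): the sum of `N(I)^(-s)` over the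
nonzero ideals `I` of class `C`. -/
noncomputable def classZeta (C : ClassGroup (𝓞 K)) (s : ℝ) : ℝ :=
  ∑' I : {I : (Ideal (𝓞 K))⁰ // ClassGroup.mk0 I = C},
    (Ideal.absNorm (I.1 : Ideal (𝓞 K)) : ℝ) ^ (-s)

/-- The `L`-series of a class group character at a real exponent `s` (sum over the nonzero
ideals). -/
noncomputable def classL (χ : ClassGroup (𝓞 K) →* ℂˣ) (s : ℝ) : ℂ :=
  ∑' I : (Ideal (𝓞 K))⁰,
    (χ (ClassGroup.mk0 I) : ℂ) * (((Ideal.absNorm (I : Ideal (𝓞 K)) : ℝ) ^ (-s) : ℝ) : ℂ)

end Fermat.Agent.S14A
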