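/-
S14A / [An2] (P1) — helper78.
Unit sum: the tent weights of the associates of `a ≠ 0` add up to the torsion order.
-/
import Mathlib
import Fermat.Agent.S14T.An2Defs

set_option autoImplicit false

namespace Fermat.Agent.S14A.UnitSum

open NumberField NumberField.InfinitePlace NumberField.Units
  NumberField.Units.dirichletUnitTheorem NumberField.mixedEmbedding Module
open Fermat.Agent.S14T.An2

/-! ### The tent function on integer translates -/

theorem tent_nonneg (t : ℝ) : 0 ≤ tent t := le_max_left _ _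

theorem tent_eq_zero_of_one_le_abs {t : ℝ} (h : 1 ≤ |t|) : tent t = 0 := by
  unfold tent
  exact max_eq_left (by linarith)

theorem tent_eq_of_abs_le_one {t : ℝ} (h : |t| ≤ 1) : tent t = 1 - |t| := by
  unfold tent
  exact max_eq_right (by linarith)

/-- The two integers `k` at which `tent (k + c)` can be nonzero. -/
noncomputable def tentSupp (c : ℝ) : Finset ℤ := {-⌊c⌋ - 1, -⌊c⌋}

theorem tent_int_add_eq_zero {c : ℝ} {k : ℤ} (hk : k ∉ tentSupp c) : tent ((k : ℝ) + c) = 0 := by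
  apply tent_eq_zero_of_one_le_abs
  have h1 : k ≠ -⌊c⌋ - 1 := fun h => hk (by simp [tentSupp, h])
  have h2 : k ≠ -⌊c⌋ := fun h => hk (by simp [tentSupp, h])
  have hf0 : (⌊c⌋ : ℝ) ≤ c := Int.floor_le c
  have hf1 : c < ⌊c⌋ + 1 := Int.lt_floor_add_one c
  rcases lt_or_gt_of_ne h2 with h | h
  · have h3 : k ≤ -⌊c⌋ - 2 := by omega
    have h4 : (k : ℝ) ≤ -(⌊c⌋ : ℝ) - 2 := by exact_mod_cast h3
    rw [le_abs]
    right
    linarith
  · have h3 : -⌊c⌋ + 1 ≤ k := by omega
    have h4 : -(⌊c⌋ : ℝ) + 1 ≤ (k : ℝ) := by exact_mod_cast h3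
    rw [le_abs]
    left
    linarith

theorem sum_tentSupp (c : ℝ) : ∑ k ∈ tentSupp c, tent ((k : ℝ) + c) = 1 := by
  have hf0 : (⌊c⌋ : ℝ) ≤ c := Int.floor_le c
  have hf1 : c < ⌊c⌋ + 1 := Int.lt_floor_add_one c
  unfold tentSupp
  rw [Finset.sum_pair (by omega)]
  have e1 : tent (((-⌊c⌋ - 1 : ℤ) : ℝ) + c) = c - ⌊c⌋ := by
    rw [tent_eq_of_abs_le_one]
    · push_cast
      rw [abs_of_nonpos (by linarith)]
      ring
    · push_cast
      rw [abs_le]
      constructor <;> linarith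
  have e2 : tent (((-⌊c⌋ : ℤ) : ℝ) + c) = 1 - (c - ⌊c⌋) := by
    rw [tent_eq_of_abs_le_one]
    · push_cast
      rw [abs_of_nonneg (by linarith)]
      ring
    · push_cast
      rw [abs_le]
      constructor <;> linarith
  rw [e1, e2]
  ring

variable (K : Type*) [Field K] [NumberField K]

theorem psi_nonneg (y : logSpace K) : 0 ≤ psi K y :=
  Finset.prod_nonneg fun _ _ => tent_nonneg _

/-- The units as `torsion × ℤ^r` (Dirichlet's unit theorem). -/
noncomputable def unitEquiv : torsion K × (Fin (rank K) → ℤ) ≃ (𝓞 K)ˣ :=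
  Equiv.ofBijective
    (fun ζe => (ζe.1 : (𝓞 K)ˣ) * ∏ i, fundSystem K i ^ ζe.2 i)
    ⟨fun x y hxy => by
      obtain ⟨z, _, hz⟩ := exist_unique_eq_mul_prod K
        ((x.1 : (𝓞 K)ˣ) * ∏ i, fundSystem K i ^ x.2 i)
      rw [hz x rfl, hz y hxy],
     fun u => by
      obtain ⟨z, hz, _⟩ := exist_unique_eq_mul_prod K u
      exact ⟨z, hz.symm⟩⟩

theorem unitEquiv_apply (ζe : torsion K × (Fin (rank K) → ℤ)) :
    unitEquiv K ζe = (ζe.1 : (𝓞 K)ˣ) * ∏ i, fundSystem K i ^ ζe.2 i := rfl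

theorem logEmbedding_unitEquiv (ζe : torsion K × (Fin (rank K) → ℤ)) :
    logEmbedding K (Additive.ofMul (unitEquiv K ζe)) =
      ∑ i, (ζe.2 i : ℝ) • logBasis K i := by
  rw [unitEquiv_apply, ofMul_mul, map_add, ofMul_prod, map_sum]
  have h0 : logEmbedding K (Additive.ofMul (ζe.1 : (𝓞 K)ˣ)) = 0 := by
    rw [logEmbedding_eq_zero_iff]
    exact ζe.1.2
  rw [h0, zero_add]
  refine Finset.sum_congr rfl fun i _ => ?_
  rw [ofMul_zpow, map_zsmul, logEmbedding_fundSystem, logBasis, Basis.ofZLatticeBasis_apply,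
    Int.cast_smul_eq_zsmul]

theorem ell_unit_mul (u : (𝓞 K)ˣ) (a : 𝓞 K) (ha : a ≠ 0) :
    ell K (((u : 𝓞 K) * a : 𝓞 K) : K) =
      logEmbedding K (Additive.ofMul u) + ell K (a : K) := by
  unfold ell
  have hn : mixedEmbedding.norm (mixedEmbedding K (a : K)) ≠ 0 := by
    rw [mixedEmbedding.norm_eq_norm]
    simpa using ha
  rw [← logMap_unit_smul u hn, unitSMul_smul, ← map_mul]
  simp

theorem psi_ell_unitEquiv (ζe : torsion K × (Fin (rank K) → ℤ)) (a : 𝓞 K) (ha : a ≠ 0) :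
    psi K (ell K ((((unitEquiv K ζe : (𝓞 K)ˣ) : 𝓞 K) * a : 𝓞 K) : K)) =
      ∏ i, tent ((ζe.2 i : ℝ) + (logBasis K).repr (ell K (a : K)) i) := by
  rw [ell_unit_mul K _ a ha, logEmbedding_unitEquiv, psi]
  refine Finset.prod_congr rfl fun i _ => ?_
  congr 1
  rw [map_add, map_sum]
  simp [Finsupp.single_apply]

end Fermat.Agent.S14A.UnitSum

namespace Fermat.Agent.S14A

open NumberField NumberField.InfinitePlace NumberField.Units
  NumberField.Units.dirichletUnitTheorem NumberField.mixedEmbedding Module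
open Fermat.Agent.S14T.An2 Fermat.Agent.S14A.UnitSum

variable (K : Type*) [Field K] [NumberField K]

/-- (P1) unit sum: the tent weights of the associates of `a ≠ 0` add up to the torsion order. -/
theorem hasSum_psi_unit_mul (a : 𝓞 K) (ha : a ≠ 0) :
    HasSum (fun u : (𝓞 K)ˣ => psi K (ell K (((u : 𝓞 K) * a : 𝓞 K) : K)))
      (torsionOrder K : ℝ) := by
  classical
  have : Fintype (torsion K) := Fintype.ofFinite _
  rw [← (unitEquiv K).hasSum_iff]
  set c : Fin (rank K) → ℝ := fun i => (logBasis K).repr (ell K (a : K)) i with hc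
  have hfun : ((fun u : (𝓞 K)ˣ => psi K (ell K (((u : 𝓞 K) * a : 𝓞 K) : K))) ∘ unitEquiv K) =
      fun ζe : torsion K × (Fin (rank K) → ℤ) => ∏ i, tent ((ζe.2 i : ℝ) + c i) := by
    funext ζe
    exact psi_ell_unitEquiv K ζe a ha
  rw [hfun]
  set T : Finset (torsion K × (Fin (rank K) → ℤ)) :=
    Finset.univ ×ˢ Fintype.piFinset fun i => tentSupp (c i) with hT
  have hzero : ∀ ζe ∉ T, ∏ i, tent ((ζe.2 i : ℝ) + c i) = 0 := by
    intro ζe hζe
    have : ¬ ∀ i, ζe.2 i ∈ tentSupp (c i) := by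
      intro h
      apply hζe
      rw [hT, Finset.mem_product]
      exact ⟨Finset.mem_univ _, Fintype.mem_piFinset.mpr h⟩
    obtain ⟨i, hi⟩ := not_forall.mp this
    exact Finset.prod_eq_zero (Finset.mem_univ i) (tent_int_add_eq_zero hi)
  have hsum : HasSum (fun ζe : torsion K × (Fin (rank K) → ℤ) =>
      ∏ i, tent ((ζe.2 i : ℝ) + c i)) (∑ ζe ∈ T, ∏ i, tent ((ζe.2 i : ℝ) + c i)) :=
    hasSum_sum_of_ne_finset_zero hzero
  have hval : ∑ ζe ∈ T, ∏ i, tent ((ζe.2 i : ℝ) + c i) = (torsionOrder K : ℝ) := by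
    rw [hT, Finset.sum_product]
    have h1 : ∀ ζ : torsion K, ∑ k ∈ Fintype.piFinset fun i => tentSupp (c i),
        ∏ i, tent ((k i : ℝ) + c i) = 1 := by
      intro ζ
      rw [← Finset.prod_univ_sum (fun i => tentSupp (c i)) (fun i (k : ℤ) => tent ((k : ℝ) + c i))]
      exact Finset.prod_eq_one fun i _ => sum_tentSupp (c i)
    rw [Finset.sum_congr rfl fun ζ _ => h1 ζ]
    simp [torsionOrder, Nat.card_eq_fintype_card]
  rw [hval] at hsum
  exact hsum

end Fermat.Agent.S14A
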