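/-
S14A / [An2] (P2) — helper78.
Class unfolding: for a nonzero ideal `J`,
  `S K J s = torsionOrder K * N(J)^(-s) * classZeta K (mk0 J)⁻¹ s`   (every real `s`),
and the two series are summable together.
-/
import Mathlib
import Fermat.Agent.S14T.An2Defs
import Fermat.Agent.S14A.Defs
import Fermat.Agent.S14A.UnitSum

set_option autoImplicit false

namespace Fermat.Agent.S14A.Unfold

open NumberField NumberField.Units nonZeroDivisors
open Fermat.Agent.S14T.An2 Fermat.Agent.S14A.UnitSum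

/-- A nonnegative real family is summable iff its `ℝ≥0∞`-sum is finite. -/
theorem summable_iff_tsum_ofReal_ne_top {ι : Type*} {f : ι → ℝ} (hf : ∀ i, 0 ≤ f i) :
    Summable f ↔ ∑' i, ENNReal.ofReal (f i) ≠ ⊤ := by
  have h1 : (fun i => ((f i).toNNReal : ℝ)) = f := by
    funext i
    exact Real.coe_toNNReal _ (hf i)
  have h2 : Summable f ↔ Summable fun i => (f i).toNNReal := by
    rw [← NNReal.summable_coe, h1]
  rw [h2, ← ENNReal.tsum_coe_ne_top_iff_summable]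
  rfl

variable {K : Type*} [Field K] [NumberField K]

theorem G_nonneg (s : ℝ) (a : 𝓞 K) : 0 ≤ G K s a := by
  unfold G
  split_ifs
  · exact le_rfl
  · exact mul_nonneg (psi_nonneg K _) (Real.rpow_nonneg (Nat.cast_nonneg _) _)

theorem G_zero (s : ℝ) : G K s (0 : 𝓞 K) = 0 := by
  unfold G
  simp

omit [NumberField K] in
theorem natAbs_norm_unit_mul (u : (𝓞 K)ˣ) (a : 𝓞 K) :
    (Algebra.norm ℤ ((u : 𝓞 K) * a)).natAbs = (Algebra.norm ℤ a).natAbs := by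
  rw [map_mul, Int.natAbs_mul]
  have hu : IsUnit (Algebra.norm ℤ (u : 𝓞 K)) := u.isUnit.map (Algebra.norm ℤ)
  rw [Int.isUnit_iff_natAbs_eq.mp hu, one_mul]

theorem G_unit_mul (s : ℝ) (u : (𝓞 K)ˣ) (a : 𝓞 K) (ha : a ≠ 0) :
    G K s ((u : 𝓞 K) * a) =
      psi K (ell K (((u : 𝓞 K) * a : 𝓞 K) : K)) * ((Algebra.norm ℤ a).natAbs : ℝ) ^ (-s) := by
  unfold G
  rw [if_neg (mul_ne_zero u.ne_zero ha), natAbs_norm_unit_mul]

variable (J : (Ideal (𝓞 K))⁰)

/-- The ideals of the class `(mk0 J)⁻¹`. -/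
abbrev Cls : Type _ := {I : (Ideal (𝓞 K))⁰ // ClassGroup.mk0 I = (ClassGroup.mk0 J)⁻¹}

theorem isPrincipal_mul (I : Cls J) :
    ((I.1 : Ideal (𝓞 K)) * (J : Ideal (𝓞 K))).IsPrincipal := by
  have h : ClassGroup.mk0 (I.1 * J) = 1 := by rw [map_mul, I.2, inv_mul_cancel]
  have h2 := (ClassGroup.mk0_eq_one_iff (I := ((I.1 * J : (Ideal (𝓞 K))⁰) : Ideal (𝓞 K)))
    (I.1 * J).2).mp h
  simpa using h2

/-- A chosen generator of `I * J`. -/
noncomputable def gen (I : Cls J) : 𝓞 K :=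
  haveI := isPrincipal_mul J I
  Submodule.IsPrincipal.generator ((I.1 : Ideal (𝓞 K)) * (J : Ideal (𝓞 K)))

theorem span_gen (I : Cls J) :
    Ideal.span {gen J I} = (I.1 : Ideal (𝓞 K)) * (J : Ideal (𝓞 K)) := by
  have := isPrincipal_mul J I
  exact Ideal.span_singleton_generator _

theorem mul_ne_bot (I : Cls J) : (I.1 : Ideal (𝓞 K)) * (J : Ideal (𝓞 K)) ≠ ⊥ :=
  mul_ne_zero (mem_nonZeroDivisors_iff_ne_zero.mp I.1.2) (mem_nonZeroDivisors_iff_ne_zero.mp J.2)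

theorem gen_ne_zero (I : Cls J) : gen J I ≠ 0 := by
  intro h
  have := span_gen J I
  rw [h, Ideal.span_singleton_eq_bot.mpr rfl] at this
  exact mul_ne_bot J I this.symm

theorem gen_mem (I : Cls J) : gen J I ∈ (J : Ideal (𝓞 K)) := by
  have h2 : Ideal.span {gen J I} ≤ (J : Ideal (𝓞 K)) := by
    rw [span_gen]
    exact (Ideal.mul_le_right :
      (I.1 : Ideal (𝓞 K)) * (J : Ideal (𝓞 K)) ≤ (J : Ideal (𝓞 K)))
  exact h2 (Ideal.mem_span_singleton_self _)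

theorem natAbs_norm_gen (I : Cls J) :
    (Algebra.norm ℤ (gen J I)).natAbs =
      Ideal.absNorm (I.1 : Ideal (𝓞 K)) * Ideal.absNorm (J : Ideal (𝓞 K)) := by
  rw [← Ideal.absNorm_span_singleton, span_gen, map_mul]

/-- The unfolding map `(I, u) ↦ u * gen I`. -/
noncomputable def unfoldMap (p : Cls J × (𝓞 K)ˣ) :
    {a : (J : Ideal (𝓞 K)) // (a : 𝓞 K) ≠ 0} :=
  ⟨⟨(p.2 : 𝓞 K) * gen J p.1, Ideal.mul_mem_left _ _ (gen_mem J p.1)⟩,
    mul_ne_zero p.2.ne_zero (gen_ne_zero J p.1)⟩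

theorem unfoldMap_coe (p : Cls J × (𝓞 K)ˣ) :
    ((unfoldMap J p : (J : Ideal (𝓞 K))) : 𝓞 K) = (p.2 : 𝓞 K) * gen J p.1 := rfl

theorem unfoldMap_bijective : Function.Bijective (unfoldMap J) := by
  constructor
  · rintro ⟨I, u⟩ ⟨I', u'⟩ h
    have h1 : (u : 𝓞 K) * gen J I = (u' : 𝓞 K) * gen J I' := by
      have := congrArg (fun x : {a : (J : Ideal (𝓞 K)) // (a : 𝓞 K) ≠ 0} =>
        ((x : (J : Ideal (𝓞 K))) : 𝓞 K)) h
      simpa [unfoldMap_coe] using this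
    have h2 : Ideal.span {gen J I} = Ideal.span {gen J I'} := by
      rw [Ideal.span_singleton_eq_span_singleton]
      refine ⟨u'⁻¹ * u, ?_⟩
      have : gen J I' = ((u'⁻¹ : (𝓞 K)ˣ) : 𝓞 K) * ((u : 𝓞 K) * gen J I) := by
        rw [h1, ← mul_assoc, ← Units.val_mul, inv_mul_cancel, Units.val_one, one_mul]
      rw [this, Units.val_mul]
      ring
    rw [span_gen, span_gen] at h2
    have h3 : (I.1 : Ideal (𝓞 K)) = (I'.1 : Ideal (𝓞 K)) :=
      mul_right_cancel₀ (mem_nonZeroDivisors_iff_ne_zero.mp J.2) h2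
    have h4 : I = I' := Subtype.ext (Subtype.ext h3)
    subst h4
    have h5 : (u : 𝓞 K) = (u' : 𝓞 K) := mul_right_cancel₀ (gen_ne_zero J I) h1
    rw [Units.ext h5]
  · rintro ⟨⟨a, haJ⟩, ha⟩
    have ha0 : a ≠ 0 := ha
    obtain ⟨I₀, hI₀⟩ : (J : Ideal (𝓞 K)) ∣ Ideal.span {a} :=
      Ideal.dvd_span_singleton.mpr haJ
    have hI₀ne : I₀ ≠ ⊥ := by
      rintro rfl
      rw [Ideal.mul_bot, Ideal.span_singleton_eq_bot] at hI₀
      exact ha0 hI₀
    let I₁ : (Ideal (𝓞 K))⁰ := ⟨I₀, mem_nonZeroDivisors_iff_ne_zero.mpr hI₀ne⟩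
    have hcls : ClassGroup.mk0 I₁ = (ClassGroup.mk0 J)⁻¹ := by
      rw [eq_inv_iff_mul_eq_one, ← map_mul]
      have hmem : Ideal.span {a} ∈ (Ideal (𝓞 K))⁰ :=
        mem_nonZeroDivisors_iff_ne_zero.mpr (by
          rw [Ne, Ideal.zero_eq_bot, Ideal.span_singleton_eq_bot]; exact ha0)
      have hprod : I₁ * J = ⟨Ideal.span {a}, hmem⟩ := by
        apply Subtype.ext
        simp only [Submonoid.coe_mul]
        rw [hI₀, mul_comm]
      rw [hprod, ClassGroup.mk0_eq_one_iff]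
      exact ⟨⟨a, rfl⟩⟩
    let I : Cls J := ⟨I₁, hcls⟩
    have hspan : Ideal.span {gen J I} = Ideal.span {a} := by
      rw [span_gen, hI₀, mul_comm]
    obtain ⟨u, hu⟩ := Ideal.span_singleton_eq_span_singleton.mp hspan
    refine ⟨(I, u), ?_⟩
    apply Subtype.ext
    apply Subtype.ext
    rw [unfoldMap_coe]
    simpa [mul_comm] using hu

/-- The unfolding equivalence. -/
noncomputable def unfoldEquiv :
    Cls J × (𝓞 K)ˣ ≃ {a : (J : Ideal (𝓞 K)) // (a : 𝓞 K) ≠ 0} :=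
  Equiv.ofBijective (unfoldMap J) (unfoldMap_bijective J)

theorem tsum_units_ofReal_G (s : ℝ) (I : Cls J) :
    ∑' u : (𝓞 K)ˣ, ENNReal.ofReal (G K s ((u : 𝓞 K) * gen J I)) =
      ENNReal.ofReal (torsionOrder K) *
        (ENNReal.ofReal ((Ideal.absNorm (I.1 : Ideal (𝓞 K)) : ℝ) ^ (-s)) *
          ENNReal.ofReal ((Ideal.absNorm (J : Ideal (𝓞 K)) : ℝ) ^ (-s))) := by
  have hP1 := hasSum_psi_unit_mul K (gen J I) (gen_ne_zero J I)
  have h1 : ∀ u : (𝓞 K)ˣ, ENNReal.ofReal (G K s ((u : 𝓞 K) * gen J I)) =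
      ENNReal.ofReal (psi K (ell K (((u : 𝓞 K) * gen J I : 𝓞 K) : K))) *
        ENNReal.ofReal (((Algebra.norm ℤ (gen J I)).natAbs : ℝ) ^ (-s)) := by
    intro u
    rw [G_unit_mul s u _ (gen_ne_zero J I), ENNReal.ofReal_mul (psi_nonneg K _)]
  simp_rw [h1]
  rw [ENNReal.tsum_mul_right, ← ENNReal.ofReal_tsum_of_nonneg (fun u => psi_nonneg K _)
    hP1.summable, hP1.tsum_eq, natAbs_norm_gen, Nat.cast_mul,
    Real.mul_rpow (Nat.cast_nonneg _) (Nat.cast_nonneg _),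
    ENNReal.ofReal_mul (Real.rpow_nonneg (Nat.cast_nonneg _) _)]

/-- The unfolding identity in `ℝ≥0∞` (no summability needed). -/
theorem tsum_ofReal_G (s : ℝ) :
    ∑' a : (J : Ideal (𝓞 K)), ENNReal.ofReal (G K s (a : 𝓞 K)) =
      ENNReal.ofReal (torsionOrder K) *
        ENNReal.ofReal ((Ideal.absNorm (J : Ideal (𝓞 K)) : ℝ) ^ (-s)) *
          ∑' I : Cls J, ENNReal.ofReal ((Ideal.absNorm (I.1 : Ideal (𝓞 K)) : ℝ) ^ (-s)) := by
  have hsupp : Function.support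
      (fun a : (J : Ideal (𝓞 K)) => ENNReal.ofReal (G K s (a : 𝓞 K))) ⊆
      {a : (J : Ideal (𝓞 K)) | (a : 𝓞 K) ≠ 0} := by
    intro a ha
    simp only [Function.mem_support, ne_eq] at ha
    intro h0
    apply ha
    rw [h0, G_zero, ENNReal.ofReal_zero]
  have hsub : ∑' a : (J : Ideal (𝓞 K)), ENNReal.ofReal (G K s (a : 𝓞 K)) =
      ∑' a : {a : (J : Ideal (𝓞 K)) // (a : 𝓞 K) ≠ 0},
        ENNReal.ofReal (G K s ((a : (J : Ideal (𝓞 K))) : 𝓞 K)) :=
    (tsum_subtype_eq_of_support_subset hsupp).symm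
  rw [hsub]
  rw [← (unfoldEquiv J).tsum_eq
    (fun a : {a : (J : Ideal (𝓞 K)) // (a : 𝓞 K) ≠ 0} =>
      ENNReal.ofReal (G K s ((a : (J : Ideal (𝓞 K))) : 𝓞 K)))]
  have hfun : (fun p : Cls J × (𝓞 K)ˣ =>
      ENNReal.ofReal (G K s (((unfoldEquiv J p : {a : (J : Ideal (𝓞 K)) // (a : 𝓞 K) ≠ 0}) :
        (J : Ideal (𝓞 K))) : 𝓞 K))) =
      fun p : Cls J × (𝓞 K)ˣ => ENNReal.ofReal (G K s ((p.2 : 𝓞 K) * gen J p.1)) := by
    funext p
    rfl
  rw [hfun, ENNReal.tsum_prod (f := fun (I : Cls J) (u : (𝓞 K)ˣ) =>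
    ENNReal.ofReal (G K s ((u : 𝓞 K) * gen J I)))]
  simp_rw [tsum_units_ofReal_G J s]
  rw [ENNReal.tsum_mul_left, ENNReal.tsum_mul_right]
  ring

end Fermat.Agent.S14A.Unfold

namespace Fermat.Agent.S14A

open NumberField NumberField.Units nonZeroDivisors
open Fermat.Agent.S14T.An2 Fermat.Agent.S14A.Unfold

variable (K : Type*) [Field K] [NumberField K]

/-- (P2) summability of the two sides of the class unfolding are equivalent. -/
theorem summable_G_iff (J : (Ideal (𝓞 K))⁰) (s : ℝ) :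
    Summable (fun a : (J : Ideal (𝓞 K)) => G K s (a : 𝓞 K)) ↔
      Summable (fun I : {I : (Ideal (𝓞 K))⁰ // ClassGroup.mk0 I = (ClassGroup.mk0 J)⁻¹} =>
        (Ideal.absNorm (I.1 : Ideal (𝓞 K)) : ℝ) ^ (-s)) := by
  rw [summable_iff_tsum_ofReal_ne_top (fun a => G_nonneg s _),
    summable_iff_tsum_ofReal_ne_top (fun I => Real.rpow_nonneg (Nat.cast_nonneg _) _),
    tsum_ofReal_G J s]
  have hw : ENNReal.ofReal (torsionOrder K) ≠ 0 :=
    (ENNReal.ofReal_pos.mpr (by exact_mod_cast torsionOrder_pos K)).ne'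
  have hJ : ENNReal.ofReal ((Ideal.absNorm (J : Ideal (𝓞 K)) : ℝ) ^ (-s)) ≠ 0 := by
    have hpos : 0 < (Ideal.absNorm (J : Ideal (𝓞 K)) : ℝ) := by
      exact_mod_cast Nat.pos_of_ne_zero (Ideal.absNorm_ne_zero_of_nonZeroDivisors J)
    exact (ENNReal.ofReal_pos.mpr (Real.rpow_pos_of_pos hpos _)).ne'
  constructor
  · intro h htop
    apply h
    rw [htop, ENNReal.mul_top (mul_ne_zero hw hJ)]
  · intro h
    exact ENNReal.mul_ne_top (ENNReal.mul_ne_top ENNReal.ofReal_ne_top ENNReal.ofReal_ne_top) h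

/-- (P2) class unfolding (valid for every real `s`; both sides are `0` when not summable). -/
theorem S_eq_classZeta (J : (Ideal (𝓞 K))⁰) (s : ℝ) :
    S K (J : Ideal (𝓞 K)) s =
      (torsionOrder K : ℝ) * (Ideal.absNorm (J : Ideal (𝓞 K)) : ℝ) ^ (-s) *
        classZeta K (ClassGroup.mk0 J)⁻¹ s := by
  by_cases hsum : Summable (fun a : (J : Ideal (𝓞 K)) => G K s (a : 𝓞 K))
  · have hsum' := (summable_G_iff K J s).mp hsum
    have hw : (0 : ℝ) ≤ torsionOrder K := Nat.cast_nonneg _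
    have hJ : (0 : ℝ) ≤ (Ideal.absNorm (J : Ideal (𝓞 K)) : ℝ) ^ (-s) :=
      Real.rpow_nonneg (Nat.cast_nonneg _) _
    have hZ : 0 ≤ classZeta K (ClassGroup.mk0 J)⁻¹ s :=
      tsum_nonneg fun I => Real.rpow_nonneg (Nat.cast_nonneg _) _
    have hS : 0 ≤ S K (J : Ideal (𝓞 K)) s := tsum_nonneg fun a => G_nonneg s _
    have key := tsum_ofReal_G J s
    rw [← ENNReal.ofReal_tsum_of_nonneg (fun a => G_nonneg s _) hsum,
      ← ENNReal.ofReal_tsum_of_nonneg (fun I => Real.rpow_nonneg (Nat.cast_nonneg _) _) hsum',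
      ← ENNReal.ofReal_mul hw, ← ENNReal.ofReal_mul (mul_nonneg hw hJ)] at key
    exact (ENNReal.ofReal_eq_ofReal_iff hS (mul_nonneg (mul_nonneg hw hJ) hZ)).mp key
  · have hsum' : ¬ Summable (fun I : {I : (Ideal (𝓞 K))⁰ //
        ClassGroup.mk0 I = (ClassGroup.mk0 J)⁻¹} =>
        (Ideal.absNorm (I.1 : Ideal (𝓞 K)) : ℝ) ^ (-s)) :=
      fun h => hsum ((summable_G_iff K J s).mpr h)
    unfold S classZeta
    rw [tsum_eq_zero_of_not_summable hsum, tsum_eq_zero_of_not_summable hsum', mul_zero]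

end Fermat.Agent.S14A
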