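/-
S14A (P6) (helper12): the `L`-series of a nontrivial class group character of a number field is
bounded on `(1,2]` (EXPORT (X1) of the S14A plan), together with the summability of
`N(I)^(-s)` over the nonzero ideals and the decomposition of `classL` into partial zeta
functions.  Instantiation of `S14A/ClassLBoundCore.lean` with
(P2) `S_eq_classZeta`, `summable_G_iff` (helper78, `S14A/Unfold.lean`) and
(P4)/(P4') `summable_G`, `S_asymp` (helper3, `S14T/An2Coset.lean`, `S14T/An2Asymp.lean`).
-/
import Mathlib
import Fermat.Agent.S14A.ClassLBoundCore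
import Fermat.Agent.S14A.Unfold
import Fermat.Agent.S14T.An2Asymp

set_option autoImplicit false

namespace Fermat.Agent.S14A

open NumberField nonZeroDivisors

variable (K : Type*) [Field K] [NumberField K]

/-- `N(I)^(-s)` is summable over the nonzero ideals for `s > 1`. -/
theorem summable_absNorm_rpow_nz {s : ℝ} (hs : 1 < s) :
    Summable fun I : (Ideal (𝓞 K))⁰ => (Ideal.absNorm (I : Ideal (𝓞 K)) : ℝ) ^ (-s) :=
  ClassLCore.summable_nz_of K s
    (ClassLCore.summable_class_of K s (Fermat.Agent.S14T.An2.summable_G K hs)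
      (fun J => summable_G_iff K J s))

/-- `classL` is the character-weighted sum of the partial zeta functions. -/
theorem classL_eq_sum (χ : ClassGroup (𝓞 K) →* ℂˣ) {s : ℝ} (hs : 1 < s) :
    classL K χ s = ∑ C : ClassGroup (𝓞 K), (χ C : ℂ) * ((classZeta K C s : ℝ) : ℂ) :=
  ClassLCore.classL_eq_sum_of K χ s (summable_absNorm_rpow_nz K hs)

/-- EXPORT (X1): the `L`-series of a nontrivial class group character is bounded on `(1,2]`. -/
theorem classL_bounded (χ : ClassGroup (𝓞 K) →* ℂˣ) (hχ : χ ≠ 1) :
    ∃ B : ℝ, ∀ s : ℝ, 1 < s → s ≤ 2 → ‖classL K χ s‖ ≤ B :=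
  ClassLCore.classL_bounded_of K χ hχ
    (fun _ hs => Fermat.Agent.S14T.An2.summable_G K hs)
    (fun J s => summable_G_iff K J s) (fun J s => S_eq_classZeta K J s)
    (fun J hJ => Fermat.Agent.S14T.An2.S_asymp K J hJ)

end Fermat.Agent.S14A
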