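/-
S14A (shared analytic block of the S14 teams), block (E): the Euler product over the prime
ideals of a Dedekind domain for a completely multiplicative function on ideals.

Proof by sieving: `∏_{v ∈ S} (1 - f v) * ∑ f = ∑_{I coprime to S} f I → f 1 = 1`.
-/
import Mathlib

set_option autoImplicit false

namespace Fermat.Agent.S14A

open IsDedekindDomain Filter Topology

variable {R : Type*} [CommRing R] [IsDedekindDomain R]
variable {𝕜 : Type*} [NormedField 𝕜] [CompleteSpace 𝕜]

/-- The ideals divisible by no prime of `S`. -/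
def coprimeSet (S : Finset (HeightOneSpectrum R)) : Set (Ideal R) :=
  {I | ∀ v ∈ S, ¬ v.asIdeal ∣ I}

omit [IsDedekindDomain R] in
theorem coprimeSet_empty : coprimeSet (∅ : Finset (HeightOneSpectrum R)) = Set.univ := by
  ext I; simp [coprimeSet]

theorem top_mem_coprimeSet (S : Finset (HeightOneSpectrum R)) : (⊤ : Ideal R) ∈ coprimeSet S := by
  intro v _ hv
  rw [Ideal.dvd_iff_le] at hv
  exact v.isPrime.ne_top (top_le_iff.mp hv)

theorem asIdeal_dvd_asIdeal_iff (v w : HeightOneSpectrum R) :
    w.asIdeal ∣ v.asIdeal ↔ w = v := by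
  constructor
  · intro h
    rw [Ideal.dvd_iff_le] at h
    have hmax : v.asIdeal.IsMaximal := v.isMaximal
    have := hmax.eq_of_le w.isPrime.ne_top h
    exact (HeightOneSpectrum.ext this).symm
  · rintro rfl; exact dvd_rfl

theorem mul_mem_coprimeSet_iff {S : Finset (HeightOneSpectrum R)} {v : HeightOneSpectrum R}
    (hv : v ∉ S) (J : Ideal R) : v.asIdeal * J ∈ coprimeSet S ↔ J ∈ coprimeSet S := by
  constructor
  · intro h w hw hwJ
    exact h w hw (Dvd.dvd.mul_left hwJ _)
  · intro h w hw hwJ
    rcases w.prime.dvd_or_dvd hwJ with h1 | h1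
    · rw [asIdeal_dvd_asIdeal_iff] at h1
      exact hv (h1 ▸ hw)
    · exact h w hw h1

omit [IsDedekindDomain R] in
theorem mem_coprimeSet_insert [DecidableEq (HeightOneSpectrum R)]
    {S : Finset (HeightOneSpectrum R)} {v : HeightOneSpectrum R} (I : Ideal R) : I ∈ coprimeSet (insert v S) ↔ I ∈ coprimeSet S ∧ ¬ v.asIdeal ∣ I := by
  simp only [coprimeSet, Set.mem_ofPred_eq, Finset.mem_insert, forall_eq_or_imp]
  tauto

/-- The sieve step. -/
theorem tsum_indicator_coprimeSet_insert [DecidableEq (HeightOneSpectrum R)] (f : Ideal R →*₀ 𝕜)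
    (hsum : Summable fun I : Ideal R => ‖f I‖) {S : Finset (HeightOneSpectrum R)}
    {v : HeightOneSpectrum R} (hv : v ∉ S) :
    ∑' I : Ideal R, (coprimeSet (insert v S)).indicator f I =
      (1 - f v.asIdeal) * ∑' I : Ideal R, (coprimeSet S).indicator f I := by
  have hf : Summable f := hsum.of_norm
  set A := coprimeSet S with hA
  set D : Set (Ideal R) := {I | v.asIdeal ∣ I} with hD
  have hsplit : ∀ I, (coprimeSet (insert v S)).indicator f I =
      A.indicator f I - (A ∩ D).indicator f I := by
    intro I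
    by_cases h1 : I ∈ A
    · by_cases h2 : v.asIdeal ∣ I
      · have h3 : I ∉ coprimeSet (insert v S) := fun h => ((mem_coprimeSet_insert I).1 h).2 h2
        have h4 : I ∈ A ∩ D := ⟨h1, h2⟩
        rw [Set.indicator_of_notMem h3, Set.indicator_of_mem h1, Set.indicator_of_mem h4, sub_self]
      · have h3 : I ∈ coprimeSet (insert v S) := (mem_coprimeSet_insert I).2 ⟨h1, h2⟩
        have h4 : I ∉ A ∩ D := fun h => h2 h.2
        rw [Set.indicator_of_mem h3, Set.indicator_of_mem h1, Set.indicator_of_notMem h4, sub_zero]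
    · have h3 : I ∉ coprimeSet (insert v S) := fun h => h1 ((mem_coprimeSet_insert I).1 h).1
      have h4 : I ∉ A ∩ D := fun h => h1 h.1
      rw [Set.indicator_of_notMem h3, Set.indicator_of_notMem h1, Set.indicator_of_notMem h4,
        sub_zero]
  have hinj : Function.Injective (fun J : Ideal R => v.asIdeal * J) := by
    intro J J' h
    exact mul_left_cancel₀ v.ne_bot h
  have hsupp : Function.support ((A ∩ D).indicator f) ⊆ Set.range (fun J : Ideal R => v.asIdeal * J) := by
    intro I hI
    have : I ∈ A ∩ D := by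
      by_contra h
      exact hI (Set.indicator_of_notMem h _)
    obtain ⟨J, rfl⟩ := this.2
    exact ⟨J, rfl⟩
  have hcomp : ∀ J : Ideal R, (A ∩ D).indicator f (v.asIdeal * J) = f v.asIdeal * A.indicator f J := by
    intro J
    by_cases h : J ∈ A
    · have h' : v.asIdeal * J ∈ A ∩ D := ⟨(mul_mem_coprimeSet_iff hv J).2 h, Dvd.intro _ rfl⟩
      rw [Set.indicator_of_mem h', Set.indicator_of_mem h, map_mul]
    · have h' : v.asIdeal * J ∉ A ∩ D := fun h'' => h ((mul_mem_coprimeSet_iff hv J).1 h''.1)
      rw [Set.indicator_of_notMem h', Set.indicator_of_notMem h, mul_zero]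
  have h1 : ∑' I : Ideal R, (A ∩ D).indicator f I = f v.asIdeal * ∑' J : Ideal R, A.indicator f J := by
    rw [← hinj.tsum_eq hsupp]
    simp only [hcomp]
    exact tsum_mul_left
  calc ∑' I : Ideal R, (coprimeSet (insert v S)).indicator f I
      = ∑' I : Ideal R, (A.indicator f I - (A ∩ D).indicator f I) := by simp only [hsplit]
    _ = ∑' I : Ideal R, A.indicator f I - ∑' I : Ideal R, (A ∩ D).indicator f I :=
        (hf.indicator A).tsum_sub (hf.indicator (A ∩ D))
    _ = (1 - f v.asIdeal) * ∑' I : Ideal R, A.indicator f I := by rw [h1]; ring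

theorem tsum_indicator_coprimeSet (f : Ideal R →*₀ 𝕜)
    (hsum : Summable fun I : Ideal R => ‖f I‖) (S : Finset (HeightOneSpectrum R)) :
    ∑' I : Ideal R, (coprimeSet S).indicator f I =
      (∏ v ∈ S, (1 - f v.asIdeal)) * ∑' I : Ideal R, f I := by
  classical
  induction S using Finset.induction_on with
  | empty => simp [coprimeSet_empty]
  | insert v S hv ih =>
    rw [tsum_indicator_coprimeSet_insert f hsum hv, ih, Finset.prod_insert hv, mul_assoc]

theorem exists_prime_dvd {I : Ideal R} (h0 : I ≠ ⊥) (h1 : I ≠ ⊤) :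
    ∃ v : HeightOneSpectrum R, v.asIdeal ∣ I := by
  obtain ⟨M, hM, hIM⟩ := Ideal.exists_le_maximal I h1
  have hMbot : M ≠ ⊥ := fun h => h0 (le_bot_iff.mp (h ▸ hIM))
  exact ⟨⟨M, hM.isPrime, hMbot⟩, Ideal.dvd_iff_le.mpr hIM⟩

theorem tendsto_tsum_indicator_coprimeSet (f : Ideal R →*₀ 𝕜)
    (hsum : Summable fun I : Ideal R => ‖f I‖) :
    Tendsto (fun S : Finset (HeightOneSpectrum R) => ∑' I : Ideal R, (coprimeSet S).indicator f I)
      atTop (𝓝 1) := by
  classical
  have hf : Summable f := hsum.of_norm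
  rw [Metric.tendsto_atTop]
  intro ε hε
  obtain ⟨T, hT⟩ := hsum.tsum_vanishing (Metric.ball_mem_nhds (0 : ℝ) hε)
  -- choose a prime divisor for every proper nonzero ideal of `T`
  let pd : Ideal R → Finset (HeightOneSpectrum R) := fun I =>
    if h : I ≠ ⊥ ∧ I ≠ ⊤ then {Classical.choose (exists_prime_dvd h.1 h.2)} else ∅
  refine ⟨T.biUnion pd, fun S hS => ?_⟩
  set t : Set (Ideal R) := (coprimeSet S \ {⊤}) \ {⊥} with ht
  have hdisj : Disjoint t (T : Set (Ideal R)) := by
    rw [Set.disjoint_left]
    intro I hIt hIT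
    have hI0 : I ≠ ⊥ := fun h => hIt.2 (by simp [h])
    have hI1 : I ≠ ⊤ := fun h => hIt.1.2 (by simp [h])
    have hIS : I ∈ coprimeSet S := hIt.1.1
    have hmem : Classical.choose (exists_prime_dvd hI0 hI1) ∈ S := by
      apply hS
      rw [Finset.mem_biUnion]
      refine ⟨I, hIT, ?_⟩
      simp only [pd]
      rw [dif_pos ⟨hI0, hI1⟩]
      exact Finset.mem_singleton_self _
    exact hIS _ hmem (Classical.choose_spec (exists_prime_dvd hI0 hI1))
  have hlt := hT t hdisj
  rw [Metric.mem_ball, dist_zero_right, Real.norm_eq_abs] at hlt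
  have hlt' : ∑' I : Ideal R, t.indicator (fun I => ‖f I‖) I < ε := by
    rw [← tsum_subtype t (fun I => ‖f I‖)]
    exact lt_of_le_of_lt (le_abs_self _) hlt
  -- the difference is the sum over `coprimeSet S \ {⊤}`
  have hsplit : ∀ I, (coprimeSet S).indicator f I =
      (if I = ⊤ then (1 : 𝕜) else 0) + t.indicator f I := by
    intro I
    by_cases h1 : I = ⊤
    · subst h1
      have : (⊤ : Ideal R) ∉ t := fun h => h.1.2 rfl
      rw [Set.indicator_of_mem (top_mem_coprimeSet S), Set.indicator_of_notMem this, if_pos rfl,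
        add_zero, ← Ideal.one_eq_top, map_one]
    · rw [if_neg h1, zero_add]
      by_cases h0 : I = ⊥
      · subst h0
        have : (⊥ : Ideal R) ∉ t := fun h => h.2 rfl
        rw [Set.indicator_of_notMem this]
        by_cases h2 : (⊥ : Ideal R) ∈ coprimeSet S
        · rw [Set.indicator_of_mem h2, ← Ideal.zero_eq_bot, map_zero]
        · rw [Set.indicator_of_notMem h2]
      · by_cases h2 : I ∈ coprimeSet S
        · have : I ∈ t := ⟨⟨h2, h1⟩, h0⟩
          rw [Set.indicator_of_mem h2, Set.indicator_of_mem this]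
        · have : I ∉ t := fun h => h2 h.1.1
          rw [Set.indicator_of_notMem h2, Set.indicator_of_notMem this]
  have h1 : ∑' I : Ideal R, (coprimeSet S).indicator f I = 1 + ∑' I : Ideal R, t.indicator f I := by
    simp only [hsplit]
    rw [Summable.tsum_add (summable_of_ne_finset_zero (s := {⊤}) (by
      intro I hI; rw [Finset.mem_singleton] at hI; rw [if_neg hI])) (hf.indicator t), tsum_ite_eq]
  rw [h1, dist_eq_norm, add_sub_cancel_left]
  have hnorm : ∀ I, ‖t.indicator f I‖ = t.indicator (fun I => ‖f I‖) I := by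
    intro I
    by_cases h : I ∈ t
    · rw [Set.indicator_of_mem h, Set.indicator_of_mem h]
    · rw [Set.indicator_of_notMem h, Set.indicator_of_notMem h, norm_zero]
  calc ‖∑' I : Ideal R, t.indicator f I‖ ≤ ∑' I : Ideal R, ‖t.indicator f I‖ :=
        norm_tsum_le_tsum_norm (by simp only [hnorm]; exact hsum.indicator t)
    _ = ∑' I : Ideal R, t.indicator (fun I => ‖f I‖) I := by simp only [hnorm]
    _ < ε := hlt'

/-- The sum of a completely multiplicative, absolutely summable function on ideals is nonzero. -/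
theorem tsum_ideal_ne_zero (f : Ideal R →*₀ 𝕜) (hsum : Summable fun I : Ideal R => ‖f I‖) :
    ∑' I : Ideal R, f I ≠ 0 := by
  intro h0
  have h := tendsto_tsum_indicator_coprimeSet f hsum
  simp only [tsum_indicator_coprimeSet f hsum, h0, mul_zero] at h
  exact zero_ne_one (tendsto_nhds_unique tendsto_const_nhds h)

/-- Euler product, in the form `∏ (1 - f 𝔭) = (∑ f)⁻¹`. -/
theorem eulerProd_ideal_one_sub (f : Ideal R →*₀ 𝕜) (hsum : Summable fun I : Ideal R => ‖f I‖) :
    HasProd (fun v : HeightOneSpectrum R => 1 - f v.asIdeal) (∑' I : Ideal R, f I)⁻¹ := by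
  have h0 := tsum_ideal_ne_zero f hsum
  have h := (tendsto_tsum_indicator_coprimeSet f hsum).mul_const (∑' I : Ideal R, f I)⁻¹
  simp only [tsum_indicator_coprimeSet f hsum, one_mul] at h
  unfold HasProd
  simp only [SummationFilter.unconditional_filter]
  refine h.congr fun S => ?_
  rw [mul_assoc, mul_inv_cancel₀ h0, mul_one]

/-- **Euler product over prime ideals**: for a completely multiplicative function `f` on the
ideals of a Dedekind domain with `∑ ‖f I‖ < ∞`,  `∏_𝔭 (1 - f 𝔭)⁻¹ = ∑_I f I`. -/
theorem eulerProd_ideal (f : Ideal R →*₀ 𝕜) (hsum : Summable fun I : Ideal R => ‖f I‖) :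
    HasProd (fun v : HeightOneSpectrum R => (1 - f v.asIdeal)⁻¹) (∑' I : Ideal R, f I) := by
  have h0 := tsum_ideal_ne_zero f hsum
  have h := eulerProd_ideal_one_sub f hsum
  unfold HasProd at h ⊢
  simp only [SummationFilter.unconditional_filter] at h ⊢
  have h' := h.inv₀ (inv_ne_zero h0)
  rw [inv_inv] at h'
  refine h'.congr fun S => ?_
  rw [Finset.prod_inv_distrib]

end Fermat.Agent.S14A
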