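/-
S14A/S14Z, block (Z0): Dedekind zeta and class L-functions of a number field as sums over ideals,
for real `s > 1`; their Euler products, prime sums versus `log ζ`, and the pole bounds.
-/
import Mathlib
import Fermat.Agent.S14A.EulerProd
import Fermat.Agent.S14A.Defs

set_option autoImplicit false

namespace Fermat.Agent.S14A

open IsDedekindDomain Filter Topology NumberField
open scoped nonZeroDivisors

variable (F : Type*) [Field F] [NumberField F]

noncomputable def normPow (s : ℝ) (hs : s ≠ 0) : Ideal (𝓞 F) →*₀ ℝ where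
  toFun I := (Ideal.absNorm I : ℝ) ^ (-s)
  map_zero' := by
    show ((Ideal.absNorm (0 : Ideal (𝓞 F)) : ℕ) : ℝ) ^ (-s) = 0
    rw [Ideal.zero_eq_bot, Ideal.absNorm_bot, Nat.cast_zero, Real.zero_rpow (neg_ne_zero.mpr hs)]
  map_one' := by
    show ((Ideal.absNorm (1 : Ideal (𝓞 F)) : ℕ) : ℝ) ^ (-s) = 1
    rw [Ideal.one_eq_top, Ideal.absNorm_top, Nat.cast_one, Real.one_rpow]
  map_mul' I J := by
    show ((Ideal.absNorm (I * J) : ℕ) : ℝ) ^ (-s) = _
    rw [map_mul, Nat.cast_mul, Real.mul_rpow (Nat.cast_nonneg _) (Nat.cast_nonneg _)]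

theorem normPow_apply (s : ℝ) (hs : s ≠ 0) (I : Ideal (𝓞 F)) :
    normPow F s hs I = (Ideal.absNorm I : ℝ) ^ (-s) := rfl

/-- The Dedekind zeta function at a real argument, as a sum over all ideals. -/
noncomputable def zetaR (s : ℝ) : ℝ := ∑' I : Ideal (𝓞 F), (Ideal.absNorm I : ℝ) ^ (-s)

theorem lseriesSummable_card {s : ℝ} (hs : 1 < s) :
    LSeriesSummable (fun n ↦ ((Nat.card {I : Ideal (𝓞 F) // Ideal.absNorm I = n} : ℝ) : ℂ))
      (s : ℂ) := by
  refine LSeriesSummable_of_sum_norm_bigO_and_nonneg ?_ (fun _ ↦ Nat.cast_nonneg _) zero_le_one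
    (by simpa using hs)
  refine Asymptotics.isBigO_atTop_natCast_rpow_of_tendsto_div_rpow
    (a := (NumberField.dedekindZeta_residue F)) ?_
  have := ((NumberField.Ideal.tendsto_norm_le_div_atTop₀ F).comp tendsto_natCast_atTop_atTop)
  simp only [Real.rpow_one]
  refine this.congr fun n ↦ ?_
  simp only [Function.comp_apply, Nat.cast_le, ← Nat.cast_sum]
  congr
  rw [← add_left_inj 1, ← Ideal.card_norm_le_eq_card_norm_le_add_one,
    show Finset.Icc 1 n = Finset.Ioc 0 n from Finset.Icc_succ_left_eq_Ioc _ _,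
    show 1 = Nat.card {I : Ideal (𝓞 F) // Ideal.absNorm I = 0} by simp [Ideal.absNorm_eq_zero_iff],
    Finset.sum_Ioc_add_eq_sum_Icc (n.zero_le),
    ← Finset.card_preimage_eq_sum_card_image_eq (fun k _ ↦ Ideal.finite_setOfPred_absNorm_eq k)]
  simp [Set.coe_eq_subtype]

/-- the `n`-th term of the Dedekind zeta L-series, as a real number -/
theorem term_card_eq {s : ℝ} (hs : 1 < s) (n : ℕ) :
    LSeries.term (fun n ↦ ((Nat.card {I : Ideal (𝓞 F) // Ideal.absNorm I = n} : ℝ) : ℂ)) (s : ℂ) n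
      = (((Nat.card {I : Ideal (𝓞 F) // Ideal.absNorm I = n} : ℝ) * (n : ℝ) ^ (-s) : ℝ) : ℂ) := by
  rcases Nat.eq_zero_or_pos n with rfl | hn
  · rw [LSeries.term_zero, Nat.cast_zero, Real.zero_rpow (by linarith), mul_zero, Complex.ofReal_zero]
  · rw [LSeries.term_of_ne_zero hn.ne', Real.rpow_neg (Nat.cast_nonneg n), Complex.ofReal_mul,
      Complex.ofReal_inv, Complex.ofReal_cpow (Nat.cast_nonneg n), Complex.ofReal_natCast,
      div_eq_mul_inv]
    simp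

theorem tsum_fibre_eq (s : ℝ) (n : ℕ) :
    ∑' y : {I : Ideal (𝓞 F) // Ideal.absNorm I = n}, (Ideal.absNorm (y : Ideal (𝓞 F)) : ℝ) ^ (-s)
      = (Nat.card {I : Ideal (𝓞 F) // Ideal.absNorm I = n} : ℝ) * (n : ℝ) ^ (-s) := by
  have : ∀ y : {I : Ideal (𝓞 F) // Ideal.absNorm I = n},
      (Ideal.absNorm (y : Ideal (𝓞 F)) : ℝ) ^ (-s) = (n : ℝ) ^ (-s) := fun y => by rw [y.2]
  simp only [this]
  rw [tsum_const, nsmul_eq_mul]

theorem summable_sigma_absNorm_rpow {s : ℝ} (hs : 1 < s) :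
    Summable fun x : (Σ n : ℕ, {I : Ideal (𝓞 F) // Ideal.absNorm I = n}) =>
      (Ideal.absNorm (x.2 : Ideal (𝓞 F)) : ℝ) ^ (-s) := by
  rw [summable_sigma_of_nonneg (fun _ => Real.rpow_nonneg (Nat.cast_nonneg _) _)]
  refine ⟨fun n => ?_, ?_⟩
  · have : Finite {I : Ideal (𝓞 F) // Ideal.absNorm I = n} := Ideal.finite_setOfPred_absNorm_eq n
    exact Summable.of_finite
  · simp only [tsum_fibre_eq]
    have h := (lseriesSummable_card F hs).norm
    refine h.congr fun n => ?_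
    rw [term_card_eq F hs n, Complex.norm_real, Real.norm_eq_abs, abs_of_nonneg]
    exact mul_nonneg (Nat.cast_nonneg _) (Real.rpow_nonneg (Nat.cast_nonneg _) _)

theorem summable_absNorm_rpow {s : ℝ} (hs : 1 < s) :
    Summable fun I : Ideal (𝓞 F) => (Ideal.absNorm I : ℝ) ^ (-s) := by
  have h := summable_sigma_absNorm_rpow F hs
  have := (Equiv.sigmaFiberEquiv (Ideal.absNorm : Ideal (𝓞 F) → ℕ)).summable_iff
    (f := fun I : Ideal (𝓞 F) => (Ideal.absNorm I : ℝ) ^ (-s))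
  exact this.mp h

theorem zetaR_eq_tsum_nat {s : ℝ} (hs : 1 < s) :
    zetaR F s = ∑' n : ℕ, (Nat.card {I : Ideal (𝓞 F) // Ideal.absNorm I = n} : ℝ) * (n : ℝ) ^ (-s) := by
  unfold zetaR
  rw [← (Equiv.sigmaFiberEquiv (Ideal.absNorm : Ideal (𝓞 F) → ℕ)).tsum_eq
    (fun I : Ideal (𝓞 F) => (Ideal.absNorm I : ℝ) ^ (-s))]
  have hc : ∀ c : (Σ n : ℕ, {I : Ideal (𝓞 F) // Ideal.absNorm I = n}),
      (Equiv.sigmaFiberEquiv (Ideal.absNorm : Ideal (𝓞 F) → ℕ)) c = (c.2 : Ideal (𝓞 F)) := fun c => rfl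
  simp only [hc]
  rw [(summable_sigma_absNorm_rpow F hs).tsum_sigma]
  simp only [← tsum_fibre_eq]

theorem dedekindZeta_ofReal {s : ℝ} (hs : 1 < s) :
    NumberField.dedekindZeta F (s : ℂ) = ((zetaR F s : ℝ) : ℂ) := by
  rw [zetaR_eq_tsum_nat F hs, Complex.ofReal_tsum]
  unfold NumberField.dedekindZeta LSeries
  refine tsum_congr fun n => ?_
  rw [← term_card_eq F hs n]
  simp

theorem summable_norm_normPow {s : ℝ} (hs : 1 < s) :
    Summable fun I : Ideal (𝓞 F) => ‖normPow F s (by linarith) I‖ := by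
  refine (summable_absNorm_rpow F hs).congr fun I => ?_
  rw [normPow_apply, Real.norm_eq_abs, abs_of_nonneg (Real.rpow_nonneg (Nat.cast_nonneg _) _)]

theorem zetaR_hasProd {s : ℝ} (hs : 1 < s) :
    HasProd (fun v : HeightOneSpectrum (𝓞 F) => (1 - (Ideal.absNorm v.asIdeal : ℝ) ^ (-s))⁻¹)
      (zetaR F s) :=
  eulerProd_ideal (normPow F s (by linarith)) (summable_norm_normPow F hs)

theorem one_le_zetaR {s : ℝ} (hs : 1 < s) : 1 ≤ zetaR F s := by
  have h := (summable_absNorm_rpow F hs).le_tsum (⊤ : Ideal (𝓞 F))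
    (fun J _ => Real.rpow_nonneg (Nat.cast_nonneg _) _)
  simpa [zetaR] using h

theorem zetaR_pos {s : ℝ} (hs : 1 < s) : 0 < zetaR F s :=
  lt_of_lt_of_le one_pos (one_le_zetaR F hs)

/-- norms of primes are at least `2` -/
theorem two_le_absNorm (v : HeightOneSpectrum (𝓞 F)) : 2 ≤ Ideal.absNorm v.asIdeal := by
  have h0 : Ideal.absNorm v.asIdeal ≠ 0 := fun h => v.ne_bot (Ideal.absNorm_eq_zero_iff.mp h)
  have h1 : Ideal.absNorm v.asIdeal ≠ 1 := fun h => v.isPrime.ne_top (Ideal.absNorm_eq_one_iff.mp h)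
  omega

theorem prime_rpow_nonneg (v : HeightOneSpectrum (𝓞 F)) (s : ℝ) :
    0 ≤ (Ideal.absNorm v.asIdeal : ℝ) ^ (-s) :=
  Real.rpow_nonneg (Nat.cast_nonneg _) _

theorem prime_rpow_le_half (v : HeightOneSpectrum (𝓞 F)) {s : ℝ} (hs : 1 ≤ s) :
    (Ideal.absNorm v.asIdeal : ℝ) ^ (-s) ≤ 1 / 2 := by
  have h2 : (2 : ℝ) ≤ (Ideal.absNorm v.asIdeal : ℝ) := by exact_mod_cast two_le_absNorm F v
  calc (Ideal.absNorm v.asIdeal : ℝ) ^ (-s) ≤ (2 : ℝ) ^ (-s) :=
        Real.rpow_le_rpow_of_nonpos (by norm_num) h2 (by linarith)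
    _ ≤ (2 : ℝ) ^ (-1 : ℝ) := Real.rpow_le_rpow_of_exponent_le (by norm_num) (by linarith)
    _ = 1 / 2 := by rw [Real.rpow_neg_one]; norm_num

/-- finite partial Euler products are bounded by `ζ`. -/
theorem prod_le_zetaR (T : Finset (HeightOneSpectrum (𝓞 F))) {s : ℝ} (hs : 1 < s) :
    ∏ v ∈ T, (1 - (Ideal.absNorm v.asIdeal : ℝ) ^ (-s))⁻¹ ≤ zetaR F s := by
  classical
  have hs0 : s ≠ 0 := by linarith
  have hsum := summable_norm_normPow F hs
  have hid := tsum_indicator_coprimeSet (normPow F s hs0) hsum T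
  have hpos : ∀ v ∈ T, 0 < 1 - (Ideal.absNorm v.asIdeal : ℝ) ^ (-s) := fun v _ => by
    have := prime_rpow_le_half F v hs.le; linarith
  have hPpos : 0 < ∏ v ∈ T, (1 - (Ideal.absNorm v.asIdeal : ℝ) ^ (-s)) := Finset.prod_pos hpos
  have hge : (1 : ℝ) ≤ ∑' I : Ideal (𝓞 F), (coprimeSet T).indicator (normPow F s hs0) I := by
    have hsm : Summable fun I : Ideal (𝓞 F) => (coprimeSet T).indicator (normPow F s hs0) I :=
      (summable_absNorm_rpow F hs).indicator _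
    have h := hsm.le_tsum (⊤ : Ideal (𝓞 F)) (fun J _ => by
      apply Set.indicator_nonneg
      intro I _
      exact Real.rpow_nonneg (Nat.cast_nonneg _) _)
    rw [Set.indicator_of_mem (top_mem_coprimeSet T)] at h
    simpa [normPow_apply] using h
  rw [hid] at hge
  rw [Finset.prod_inv_distrib, inv_le_iff_one_le_mul₀ hPpos, mul_comm]
  simpa [normPow_apply, zetaR] using hge

theorem one_sub_inv_ge_exp {x : ℝ} (hx1 : x < 1) : Real.exp x ≤ (1 - x)⁻¹ := by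
  have h1 : 0 < 1 - x := by linarith
  rw [le_inv_comm₀ (Real.exp_pos x) h1, ← Real.exp_neg]
  have := Real.add_one_le_exp (-x)
  linarith

theorem one_sub_inv_le_exp {x : ℝ} (hx0 : 0 ≤ x) (hx1 : x ≤ 1 / 2) :
    (1 - x)⁻¹ ≤ Real.exp (x + 2 * x ^ 2) := by
  have h1 : 0 < 1 - x := by linarith
  have h2 : (1 - x)⁻¹ ≤ 1 + x + 2 * x ^ 2 := by
    rw [inv_le_iff_one_le_mul₀ h1]
    nlinarith [mul_nonneg hx0 hx0, mul_nonneg (mul_nonneg hx0 hx0) (by linarith : (0 : ℝ) ≤ 1 - 2 * x)]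
  have := Real.add_one_le_exp (x + 2 * x ^ 2)
  linarith

/-- finite prime sums are bounded by `log ζ`. -/
theorem sum_prime_le_log_zetaR (T : Finset (HeightOneSpectrum (𝓞 F))) {s : ℝ} (hs : 1 < s) :
    ∑ v ∈ T, (Ideal.absNorm v.asIdeal : ℝ) ^ (-s) ≤ Real.log (zetaR F s) := by
  rw [Real.le_log_iff_exp_le (zetaR_pos F hs), Real.exp_sum]
  refine le_trans (Finset.prod_le_prod (fun v _ => (Real.exp_pos _).le) (fun v _ => ?_))
    (prod_le_zetaR F T hs)
  exact one_sub_inv_ge_exp (by have := prime_rpow_le_half F v hs.le; linarith)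

theorem summable_prime_rpow {s : ℝ} (hs : 1 < s) :
    Summable fun v : HeightOneSpectrum (𝓞 F) => (Ideal.absNorm v.asIdeal : ℝ) ^ (-s) :=
  summable_of_sum_le (fun v => prime_rpow_nonneg F v s) (fun T => sum_prime_le_log_zetaR F T hs)

/-- `Σ_𝔭 N𝔭^(-s) ≤ log ζ_F(s)`. -/
theorem tsum_prime_le_log_zetaR {s : ℝ} (hs : 1 < s) :
    ∑' v : HeightOneSpectrum (𝓞 F), (Ideal.absNorm v.asIdeal : ℝ) ^ (-s) ≤ Real.log (zetaR F s) :=
  Real.tsum_le_of_sum_le (fun v => prime_rpow_nonneg F v s) (fun T => sum_prime_le_log_zetaR F T hs)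

/-- `log ζ_F(s) ≤ Σ_𝔭 N𝔭^(-s) + c` with `c` independent of `s > 1`. -/
theorem log_zetaR_le : ∃ c : ℝ, ∀ s : ℝ, 1 < s →
    Real.log (zetaR F s) ≤ ∑' v : HeightOneSpectrum (𝓞 F), (Ideal.absNorm v.asIdeal : ℝ) ^ (-s) + c := by
  refine ⟨2 * ∑' v : HeightOneSpectrum (𝓞 F), (Ideal.absNorm v.asIdeal : ℝ) ^ (-(2 : ℝ)), fun s hs => ?_⟩
  have h2 : Summable fun v : HeightOneSpectrum (𝓞 F) => (Ideal.absNorm v.asIdeal : ℝ) ^ (-(2 : ℝ)) :=
    summable_prime_rpow F (by norm_num)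
  have hS := summable_prime_rpow F hs
  rw [Real.log_le_iff_le_exp (zetaR_pos F hs)]
  have hprod := zetaR_hasProd F hs
  unfold HasProd at hprod
  simp only [SummationFilter.unconditional_filter] at hprod
  refine le_of_tendsto hprod (Eventually.of_forall fun T => ?_)
  have hstep : ∀ v ∈ T, (1 - (Ideal.absNorm v.asIdeal : ℝ) ^ (-s))⁻¹ ≤
      Real.exp ((Ideal.absNorm v.asIdeal : ℝ) ^ (-s) + 2 * (Ideal.absNorm v.asIdeal : ℝ) ^ (-(2 : ℝ))) := by
    intro v _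
    have hx0 := prime_rpow_nonneg F v s
    have hx1 := prime_rpow_le_half F v hs.le
    refine le_trans (one_sub_inv_le_exp hx0 hx1) (Real.exp_le_exp.mpr ?_)
    have hN1 : (1 : ℝ) ≤ (Ideal.absNorm v.asIdeal : ℝ) := by
      have := two_le_absNorm F v
      exact_mod_cast (by omega : 1 ≤ Ideal.absNorm v.asIdeal)
    have hsq : ((Ideal.absNorm v.asIdeal : ℝ) ^ (-s)) ^ 2 ≤ (Ideal.absNorm v.asIdeal : ℝ) ^ (-(2 : ℝ)) := by
      rw [← Real.rpow_natCast, ← Real.rpow_mul (Nat.cast_nonneg _)]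
      apply Real.rpow_le_rpow_of_exponent_le hN1
      push_cast
      nlinarith
    linarith
  calc ∏ v ∈ T, (1 - (Ideal.absNorm v.asIdeal : ℝ) ^ (-s))⁻¹
      ≤ ∏ v ∈ T, Real.exp ((Ideal.absNorm v.asIdeal : ℝ) ^ (-s) +
          2 * (Ideal.absNorm v.asIdeal : ℝ) ^ (-(2 : ℝ))) :=
        Finset.prod_le_prod (fun v hv => by
          have := prime_rpow_le_half F v hs.le
          exact inv_nonneg.mpr (by linarith)) hstep
    _ = Real.exp (∑ v ∈ T, (Ideal.absNorm v.asIdeal : ℝ) ^ (-s) +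
          2 * ∑ v ∈ T, (Ideal.absNorm v.asIdeal : ℝ) ^ (-(2 : ℝ))) := by
        rw [← Real.exp_sum, Finset.sum_add_distrib, Finset.mul_sum]
    _ ≤ _ := by
        apply Real.exp_le_exp.mpr
        have h1 := hS.sum_le_tsum T (fun v _ => prime_rpow_nonneg F v s)
        have h2' := h2.sum_le_tsum T (fun v _ => prime_rpow_nonneg F v 2)
        linarith

/-- The simple pole at `s = 1`, as two-sided bounds near `1⁺`. -/
theorem zetaR_pole : ∃ c C : ℝ, 0 < c ∧ ∀ᶠ s in 𝓝[>] (1 : ℝ),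
    c / (s - 1) ≤ zetaR F s ∧ zetaR F s ≤ C / (s - 1) := by
  have hρ := NumberField.dedekindZeta_residue_pos F
  set ρ := NumberField.dedekindZeta_residue F with hρdef
  have ht := NumberField.tendsto_sub_one_mul_dedekindZeta_nhdsGT F
  have ht' : Tendsto (fun s : ℝ => (s - 1) * zetaR F s) (𝓝[>] 1) (𝓝 ρ) := by
    have h1 := (Complex.continuous_re.tendsto _).comp ht
    simp only [Complex.ofReal_re] at h1
    refine h1.congr' ?_
    filter_upwards [self_mem_nhdsWithin] with s hs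
    have hs' : (1 : ℝ) < s := hs
    simp only [Function.comp_apply]
    rw [dedekindZeta_ofReal F hs', ← Complex.ofReal_one, ← Complex.ofReal_sub, ← Complex.ofReal_mul,
      Complex.ofReal_re]
  refine ⟨ρ / 2, 2 * ρ, by positivity, ?_⟩
  have e1 := ht'.eventually (lt_mem_nhds (show ρ / 2 < ρ by linarith))
  have e2 := ht'.eventually (gt_mem_nhds (show ρ < 2 * ρ by linarith))
  filter_upwards [e1, e2, self_mem_nhdsWithin] with s h1 h2 hs
  have hs' : (0 : ℝ) < s - 1 := by have : (1 : ℝ) < s := hs; linarith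
  constructor
  · rw [div_le_iff₀ hs']; linarith
  · rw [le_div_iff₀ hs']; linarith

noncomputable def chiPow (χ : ClassGroup (𝓞 F) →* ℂˣ) (s : ℝ) (_hs : s ≠ 0) : Ideal (𝓞 F) →*₀ ℂ where
  toFun I := if h : I = ⊥ then 0 else
    (χ (ClassGroup.mk0 ⟨I, mem_nonZeroDivisors_of_ne_zero h⟩) : ℂ) *
      (((Ideal.absNorm I : ℝ) ^ (-s) : ℝ) : ℂ)
  map_zero' := by
    rw [dif_pos Ideal.zero_eq_bot]
  map_one' := by
    have h1 : (1 : Ideal (𝓞 F)) ≠ ⊥ := by rw [Ideal.one_eq_top]; exact top_ne_bot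
    rw [dif_neg h1]
    have : (⟨(1 : Ideal (𝓞 F)), mem_nonZeroDivisors_of_ne_zero h1⟩ : (Ideal (𝓞 F))⁰) = 1 := rfl
    rw [this, map_one, map_one, Ideal.one_eq_top, Ideal.absNorm_top, Nat.cast_one, Real.one_rpow]
    simp
  map_mul' I J := by
    by_cases hI : I = ⊥
    · have : I * J = ⊥ := by rw [hI]; exact Ideal.bot_mul J
      rw [dif_pos this, dif_pos hI, zero_mul]
    by_cases hJ : J = ⊥
    · have : I * J = ⊥ := by rw [hJ]; exact Ideal.mul_bot I
      rw [dif_pos this, dif_pos hJ, mul_zero]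
    have hIJ : I * J ≠ ⊥ := mul_ne_zero hI hJ
    rw [dif_neg hIJ, dif_neg hI, dif_neg hJ]
    have : (⟨I * J, mem_nonZeroDivisors_of_ne_zero hIJ⟩ : (Ideal (𝓞 F))⁰) =
        ⟨I, mem_nonZeroDivisors_of_ne_zero hI⟩ * ⟨J, mem_nonZeroDivisors_of_ne_zero hJ⟩ := rfl
    rw [this, map_mul, map_mul, map_mul, Nat.cast_mul,
      Real.mul_rpow (Nat.cast_nonneg _) (Nat.cast_nonneg _)]
    push_cast
    ring

theorem chiPow_apply_of_ne_bot (χ : ClassGroup (𝓞 F) →* ℂˣ) (s : ℝ) (hs : s ≠ 0)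
    {I : Ideal (𝓞 F)} (h : I ≠ ⊥) :
    chiPow F χ s hs I = (χ (ClassGroup.mk0 ⟨I, mem_nonZeroDivisors_of_ne_zero h⟩) : ℂ) *
      (((Ideal.absNorm I : ℝ) ^ (-s) : ℝ) : ℂ) := by
  show (if h : I = ⊥ then 0 else _) = _
  rw [dif_neg h]

theorem chiPow_bot (χ : ClassGroup (𝓞 F) →* ℂˣ) (s : ℝ) (hs : s ≠ 0) :
    chiPow F χ s hs ⊥ = 0 := by
  rw [← Ideal.zero_eq_bot, map_zero]

/-- a character of the (finite) class group has absolute value `1` -/
theorem norm_classChar (χ : ClassGroup (𝓞 F) →* ℂˣ) (c : ClassGroup (𝓞 F)) :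
    ‖((χ c : ℂˣ) : ℂ)‖ = 1 := by
  have h : IsOfFinOrder (χ c) := χ.isOfFinOrder (isOfFinOrder_of_finite c)
  have h' : IsOfFinOrder ((χ c : ℂˣ) : ℂ) := by
    rw [isOfFinOrder_iff_pow_eq_one] at h ⊢
    obtain ⟨n, hn, hn1⟩ := h
    refine ⟨n, hn, ?_⟩
    rw [← Units.val_pow_eq_pow_val, hn1, Units.val_one]
  exact h'.norm_eq_one

theorem norm_chiPow (χ : ClassGroup (𝓞 F) →* ℂˣ) (s : ℝ) (hs : s ≠ 0) (I : Ideal (𝓞 F)) :
    ‖chiPow F χ s hs I‖ = (Ideal.absNorm I : ℝ) ^ (-s) := by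
  by_cases h : I = ⊥
  · subst h
    rw [chiPow_bot, norm_zero, Ideal.absNorm_bot, Nat.cast_zero, Real.zero_rpow (neg_ne_zero.mpr hs)]
  · rw [chiPow_apply_of_ne_bot F χ s hs h, norm_mul, norm_classChar, one_mul, Complex.norm_real,
      Real.norm_eq_abs, abs_of_nonneg (Real.rpow_nonneg (Nat.cast_nonneg _) _)]

theorem summable_norm_chiPow (χ : ClassGroup (𝓞 F) →* ℂˣ) {s : ℝ} (hs : 1 < s) :
    Summable fun I : Ideal (𝓞 F) => ‖chiPow F χ s (by linarith) I‖ := by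
  simp only [norm_chiPow]
  exact summable_absNorm_rpow F hs

theorem classL_eq_tsum_chiPow (χ : ClassGroup (𝓞 F) →* ℂˣ) (s : ℝ) (hs : s ≠ 0) :
    classL F χ s = ∑' I : Ideal (𝓞 F), chiPow F χ s hs I := by
  have hsupp : Function.support (chiPow F χ s hs) ⊆ ((Ideal (𝓞 F))⁰ : Set (Ideal (𝓞 F))) := by
    intro I hI
    have : I ≠ ⊥ := fun h => hI (by rw [h]; exact chiPow_bot F χ s hs)
    exact mem_nonZeroDivisors_of_ne_zero this
  rw [← tsum_subtype_eq_of_support_subset hsupp]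
  unfold classL
  refine tsum_congr fun I => ?_
  have hI : (I : Ideal (𝓞 F)) ≠ ⊥ := nonZeroDivisors.coe_ne_zero I
  rw [chiPow_apply_of_ne_bot F χ s hs hI]

theorem classL_hasProd (χ : ClassGroup (𝓞 F) →* ℂˣ) {s : ℝ} (hs : 1 < s) :
    HasProd (fun v : HeightOneSpectrum (𝓞 F) =>
      (1 - (χ (ClassGroup.mk0 ⟨v.asIdeal, mem_nonZeroDivisors_of_ne_zero v.ne_bot⟩) : ℂ) *
        (((Ideal.absNorm v.asIdeal : ℝ) ^ (-s) : ℝ) : ℂ))⁻¹) (classL F χ s) := by
  have hs0 : s ≠ 0 := by linarith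
  have h := eulerProd_ideal (chiPow F χ s hs0) (summable_norm_chiPow F χ hs)
  rw [← classL_eq_tsum_chiPow F χ s hs0] at h
  refine h.congr_fun fun v => ?_
  rw [chiPow_apply_of_ne_bot F χ s hs0 v.ne_bot]

theorem classL_one {s : ℝ} (hs : 1 < s) : classL F 1 s = ((zetaR F s : ℝ) : ℂ) := by
  have hs0 : s ≠ 0 := by linarith
  rw [classL_eq_tsum_chiPow F 1 s hs0]
  unfold zetaR
  rw [Complex.ofReal_tsum]
  refine tsum_congr fun I => ?_
  by_cases h : I = ⊥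
  · subst h
    rw [chiPow_bot, Ideal.absNorm_bot, Nat.cast_zero, Real.zero_rpow (neg_ne_zero.mpr hs0),
      Complex.ofReal_zero]
  · rw [chiPow_apply_of_ne_bot F 1 s hs0 h]
    simp

end Fermat.Agent.S14A
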