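/-
S14A, block [An3] (log form; helper60): the analytic closer of `S14T.GenStatement` in
hypothesis form.

Let `K` be a number field, `p ≥ 3` a prime, `η ∈ 𝓞 K`, `η ≠ 0`.  Let `χ ≠ 1` be a character of the
class group with `χ^p = 1` that is trivial on the classes of the *good* primes (prime norm `≠ p`,
`η` not a `p`-th power residue).  Assume
* (S-pack) a number field `M` and a norm preserving injection of `(split primes) × Fin p` into the
  primes of `M`,
* `‖L(s, χ^j)‖ ≤ B_j` on `(1, 2]` whenever `χ^j ≠ 1`.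
Then `False` (`gen_core`).

Proof.  `Z(s) = ∏_{j<p} L(s, χ^j)` has Euler factors of norm `≥ 1`, equal to `(1 - N v^{-s})^{-p}`
when `χ(v) = 1`; hence `p · Σ_{v good} N v^{-s} ≤ log ‖Z(s)‖ ≤ log ζ_K(s) + log D`.  The split primes
contribute `≤ (1/p) log ζ_M(s)`, the remaining ones are bounded.  With `log ζ_K ≤ Σ_v N v^{-s} + c`
this gives `(p - 1) log ζ_K(s) ≤ log ζ_M(s) + C` on `(1, 2]`, contradicting the simple poles.
-/
import Mathlib
import Fermat.Agent.S14T.Plan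
import Fermat.Agent.S14A.ZetaIdeal
import Fermat.Agent.S14Z.NonPrimeNorm

set_option autoImplicit false

namespace Fermat.Agent.S14A.GenAn

open IsDedekindDomain Filter Topology NumberField Finset
open scoped nonZeroDivisors
open Fermat.Agent.S14A

/-! ### Elementary facts -/

/-- `∏_{j<p} (1 - w^j T) = 1 - T^p` for a primitive `p`-th root of unity `w`. -/
theorem prod_one_sub_pow_mul_of_primitive {p : ℕ} (hp : 0 < p) {w : ℂ} (hw : IsPrimitiveRoot w p)
    (T : ℂ) : ∏ j ∈ range p, (1 - w ^ j * T) = 1 - T ^ p := by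
  have h := hw.pow_sub_pow_eq_prod_sub_mul (x := (1 : ℂ)) (y := T) hp
  rw [one_pow] at h
  rw [h]
  have hnd := hw.nthRoots_one_nodup
  have heq := hw.nthRoots_eq (α := (1 : ℂ)) (a := 1) (one_pow p)
  unfold Polynomial.nthRootsFinset
  have : (Multiset.toFinset (Polynomial.nthRoots p (1 : ℂ))).val = Polynomial.nthRoots p (1 : ℂ) := by
    rw [Multiset.toFinset_val, Multiset.dedup_eq_self.mpr hnd]
  rw [Finset.prod_eq_multiset_prod (s := Multiset.toFinset _), this, heq, Multiset.map_map]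
  rw [Finset.prod_eq_multiset_prod]
  simp

/-- The norm of the local factor of `∏_{j<p} L(s, χ^j)`: it is at least `1`, and at least
`(1 - T)^(-p)` when the character value is `1`. -/
theorem local_factor {p : ℕ} (hp : p.Prime) {w : ℂ} (hw : w ^ p = 1) {T : ℝ} (hT0 : 0 ≤ T)
    (hT1 : T < 1) :
    1 ≤ ‖∏ j ∈ range p, (1 - w ^ j * (T : ℂ))⁻¹‖ ∧
      (w = 1 → ((1 - T) ^ p)⁻¹ ≤ ‖∏ j ∈ range p, (1 - w ^ j * (T : ℂ))⁻¹‖) := by
  have h1T : 0 < 1 - T := by linarith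
  by_cases h1 : w = 1
  · subst h1
    have : ∏ j ∈ range p, (1 - (1 : ℂ) ^ j * (T : ℂ))⁻¹ = (((1 - T) ^ p)⁻¹ : ℝ) := by
      simp [Finset.prod_const]
    rw [this, Complex.norm_real, Real.norm_of_nonneg (by positivity)]
    refine ⟨?_, fun _ => le_rfl⟩
    rw [one_le_inv₀ (by positivity)]
    exact pow_le_one₀ h1T.le (by linarith)
  · refine ⟨?_, fun h => absurd h h1⟩
    have hprim : IsPrimitiveRoot w p := by
      have : Fact p.Prime := ⟨hp⟩
      have := orderOf_eq_prime hw h1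
      rw [← this]; exact IsPrimitiveRoot.orderOf w
    rw [Finset.prod_inv_distrib, prod_one_sub_pow_mul_of_primitive hp.pos hprim]
    have : (1 - (T : ℂ) ^ p)⁻¹ = (((1 - T ^ p)⁻¹ : ℝ) : ℂ) := by push_cast; rfl
    have hTp : T ^ p < 1 := pow_lt_one₀ hT0 hT1 hp.pos.ne'
    have hTp0 : 0 ≤ T ^ p := by positivity
    rw [this, Complex.norm_real, Real.norm_of_nonneg (by rw [inv_nonneg]; linarith)]
    rw [one_le_inv₀ (by linarith)]
    linarith

/-- Partial products of a real infinite product with factors `≥ 1` are bounded by the product. -/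
theorem prod_le_of_hasProd {ι : Type*} {f : ι → ℝ} {a : ℝ} (hf : HasProd f a)
    (h1 : ∀ i, 1 ≤ f i) (S : Finset ι) : ∏ i ∈ S, f i ≤ a := by
  classical
  refine ge_of_tendsto hf (eventually_atTop.2 ⟨S, fun T hST => ?_⟩)
  rw [← Finset.prod_sdiff hST]
  have h2 : 1 ≤ ∏ i ∈ T \ S, f i :=
    Finset.prod_induction _ (fun x : ℝ => 1 ≤ x)
      (fun a b ha hb => one_le_mul_of_one_le_of_one_le ha hb) le_rfl (fun i _ => h1 i)
  have h3 : 0 ≤ ∏ i ∈ S, f i := Finset.prod_nonneg (fun i _ => zero_le_one.trans (h1 i))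
  exact le_mul_of_one_le_left h3 h2

/-- `(1 - T)^(-p) ≥ exp (p T)`. -/
theorem exp_le_inv_one_sub_pow (p : ℕ) {T : ℝ} (hT1 : T < 1) :
    Real.exp (p * T) ≤ ((1 - T) ^ p)⁻¹ := by
  have h1T : 0 < 1 - T := by linarith
  have h := Real.add_one_le_exp (-T)
  have h2 : (1 - T) ^ p ≤ Real.exp (-T) ^ p := pow_le_pow_left₀ h1T.le (by linarith) p
  rw [← Real.exp_nat_mul] at h2
  rw [le_inv_comm₀ (Real.exp_pos _) (by positivity), ← Real.exp_neg]
  calc (1 - T) ^ p ≤ Real.exp (p * -T) := h2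
    _ = Real.exp (-(p * T)) := by ring_nf

/-! ### The product `Z(s) = ∏_{j<p} L(s, χ^j)` -/

section Z

variable (K : Type*) [Field K] [NumberField K]

/-- The class of a prime. -/
noncomputable abbrev cls (v : HeightOneSpectrum (𝓞 K)) : ClassGroup (𝓞 K) :=
  ClassGroup.mk0 ⟨v.asIdeal, mem_nonZeroDivisors_of_ne_zero v.ne_bot⟩

/-- Lower bound: the primes where `χ = 1` contribute `exp (p · Σ N v^{-s})` to `‖Z(s)‖`. -/
theorem exp_le_norm_prod_classL {p : ℕ} (hp : p.Prime) (χ : ClassGroup (𝓞 K) →* ℂˣ)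
    (hχp : χ ^ p = 1) {s : ℝ} (hs : 1 < s) (S : Finset (HeightOneSpectrum (𝓞 K)))
    (hS : ∀ v ∈ S, χ (cls K v) = 1) :
    Real.exp (p * ∑ v ∈ S, (Ideal.absNorm v.asIdeal : ℝ) ^ (-s)) ≤
      ‖∏ j ∈ range p, classL K (χ ^ j) s‖ := by
  have hprod : HasProd (fun v : HeightOneSpectrum (𝓞 K) => ∏ j ∈ range p,
      (1 - ((χ ^ j) (cls K v) : ℂ) * (((Ideal.absNorm v.asIdeal : ℝ) ^ (-s) : ℝ) : ℂ))⁻¹)
      (∏ j ∈ range p, classL K (χ ^ j) s) :=
    hasProd_prod fun j _ => classL_hasProd K (χ ^ j) hs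
  have hnorm := hprod.norm
  have hT1 : ∀ v : HeightOneSpectrum (𝓞 K), (Ideal.absNorm v.asIdeal : ℝ) ^ (-s) < 1 := fun v =>
    lt_of_le_of_lt (prime_rpow_le_half K v hs.le) (by norm_num)
  have hfac : ∀ v : HeightOneSpectrum (𝓞 K),
      1 ≤ ‖∏ j ∈ range p, (1 - ((χ ^ j) (cls K v) : ℂ) *
          (((Ideal.absNorm v.asIdeal : ℝ) ^ (-s) : ℝ) : ℂ))⁻¹‖ ∧
      (χ (cls K v) = 1 → ((1 - (Ideal.absNorm v.asIdeal : ℝ) ^ (-s)) ^ p)⁻¹ ≤
        ‖∏ j ∈ range p, (1 - ((χ ^ j) (cls K v) : ℂ) *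
          (((Ideal.absNorm v.asIdeal : ℝ) ^ (-s) : ℝ) : ℂ))⁻¹‖) := by
    intro v
    have hw : ((χ (cls K v) : ℂˣ) : ℂ) ^ p = 1 := by
      have h := congrArg (fun ψ : ClassGroup (𝓞 K) →* ℂˣ => ((ψ (cls K v) : ℂˣ) : ℂ)) hχp
      simpa using h
    have h := local_factor hp hw (prime_rpow_nonneg K v s) (hT1 v)
    simp only [MonoidHom.pow_apply, Units.val_pow_eq_pow_val]
    refine ⟨h.1, fun h1 => h.2 ?_⟩
    rw [h1]; rfl
  calc Real.exp (p * ∑ v ∈ S, (Ideal.absNorm v.asIdeal : ℝ) ^ (-s))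
      = ∏ v ∈ S, Real.exp (p * (Ideal.absNorm v.asIdeal : ℝ) ^ (-s)) := by
        rw [Finset.mul_sum, Real.exp_sum]
    _ ≤ ∏ v ∈ S, ‖∏ j ∈ range p, (1 - ((χ ^ j) (cls K v) : ℂ) *
          (((Ideal.absNorm v.asIdeal : ℝ) ^ (-s) : ℝ) : ℂ))⁻¹‖ :=
        Finset.prod_le_prod (fun v _ => (Real.exp_pos _).le) (fun v hv =>
          (exp_le_inv_one_sub_pow p (hT1 v)).trans ((hfac v).2 (hS v hv)))
    _ ≤ ‖∏ j ∈ range p, classL K (χ ^ j) s‖ := prod_le_of_hasProd hnorm (fun v => (hfac v).1) S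

/-- Upper bound: `‖Z(s)‖ ≤ ζ_K(s) · D` on `(1, 2]`. -/
theorem norm_prod_classL_le {p : ℕ} (hp : p.Prime) (χ : ClassGroup (𝓞 K) →* ℂˣ) (hχ : χ ≠ 1)
    (hχp : χ ^ p = 1)
    (hB : ∀ j : ℕ, χ ^ j ≠ 1 → ∃ B : ℝ, ∀ s : ℝ, 1 < s → s ≤ 2 → ‖classL K (χ ^ j) s‖ ≤ B) :
    ∃ D : ℝ, 1 ≤ D ∧ ∀ s : ℝ, 1 < s → s ≤ 2 →
      ‖∏ j ∈ range p, classL K (χ ^ j) s‖ ≤ zetaR K s * D := by
  have hord : orderOf χ = p := by
    have : Fact p.Prime := ⟨hp⟩
    exact orderOf_eq_prime hχp hχ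
  obtain ⟨n, rfl⟩ : ∃ n, p = n + 1 := ⟨p - 1, (Nat.succ_pred_eq_of_pos hp.pos).symm⟩
  have hne : ∀ j : ℕ, j ∈ range n → χ ^ (j + 1) ≠ 1 := by
    intro j hj h1
    have hdvd := @orderOf_dvd_of_pow_eq_one (ClassGroup (𝓞 K) →* ℂˣ) _ χ (j + 1) h1
    rw [hord] at hdvd
    have := Nat.le_of_dvd (Nat.succ_pos j) hdvd
    have := Finset.mem_range.mp hj
    omega
  have hex : ∀ j : ℕ, ∃ B : ℝ, j ∈ range n →
      ∀ s : ℝ, 1 < s → s ≤ 2 → ‖classL K (χ ^ (j + 1)) s‖ ≤ B := by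
    intro j
    by_cases hj : j ∈ range n
    · obtain ⟨B, hB'⟩ := hB (j + 1) (hne j hj)
      exact ⟨B, fun _ => hB'⟩
    · exact ⟨0, fun h => absurd h hj⟩
  choose B hB' using hex
  refine ⟨∏ j ∈ range n, max (B j) 1, ?_, fun s hs hs2 => ?_⟩
  · exact Finset.prod_induction _ (fun x : ℝ => 1 ≤ x)
      (fun a b ha hb => one_le_mul_of_one_le_of_one_le ha hb) le_rfl (fun j _ => le_max_right _ _)
  · have h0 : χ ^ 0 = 1 := pow_zero χ
    rw [Finset.prod_range_succ', norm_mul, norm_prod, h0, classL_one K hs, Complex.norm_real,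
      Real.norm_of_nonneg (zetaR_pos K hs).le, mul_comm]
    refine mul_le_mul_of_nonneg_left ?_ (zetaR_pos K hs).le
    exact Finset.prod_le_prod (fun j _ => norm_nonneg _)
      (fun j hj => (hB' j hj s hs hs2).trans (le_max_left _ _))

end Z

/-! ### Good, split and bad primes -/

section Key

variable (K : Type) [Field K] [NumberField K] (M : Type*) [Field M] [NumberField M]

/-- good primes: prime norm `≠ p`, `η` not a `p`-th power residue. -/
def Good (p : ℕ) (η : 𝓞 K) (v : HeightOneSpectrum (𝓞 K)) : Prop :=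
  (Ideal.absNorm v.asIdeal).Prime ∧ Ideal.absNorm v.asIdeal ≠ p ∧
    ¬ ∃ x : 𝓞 K, x ^ p - η ∈ v.asIdeal

/-- split primes (the index set of (S-pack)). -/
abbrev Split (p : ℕ) (η : 𝓞 K) (v : HeightOneSpectrum (𝓞 K)) : Prop :=
  (p : 𝓞 K) ∉ v.asIdeal ∧ η ∉ v.asIdeal ∧ ∃ y : 𝓞 K, η - y ^ p ∈ v.asIdeal

variable {K}

theorem good_mem_goodClasses {p : ℕ} {η : 𝓞 K} {v : HeightOneSpectrum (𝓞 K)}
    (h : Good K p η v) : cls K v ∈ S14T.goodClasses p K η :=
  ⟨⟨v.asIdeal, mem_nonZeroDivisors_of_ne_zero v.ne_bot⟩, v.isPrime, h.1, h.2.1, h.2.2, rfl⟩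

/-- every prime is good, split, of non-prime norm, or divides `p` or `η`. -/
theorem prime_cases (p : ℕ) (η : 𝓞 K) (v : HeightOneSpectrum (𝓞 K)) :
    Good K p η v ∨ Split K p η v ∨ ¬ (Ideal.absNorm v.asIdeal).Prime ∨
      v.asIdeal ∣ Ideal.span {(p : 𝓞 K)} ∨ v.asIdeal ∣ Ideal.span {η} := by
  by_cases h1 : (Ideal.absNorm v.asIdeal).Prime
  swap
  · exact Or.inr (Or.inr (Or.inl h1))
  by_cases h2 : (p : 𝓞 K) ∈ v.asIdeal
  · exact Or.inr (Or.inr (Or.inr (Or.inl (Ideal.dvd_span_singleton.mpr h2))))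
  by_cases h3 : η ∈ v.asIdeal
  · exact Or.inr (Or.inr (Or.inr (Or.inr (Ideal.dvd_span_singleton.mpr h3))))
  by_cases h4 : ∃ x : 𝓞 K, x ^ p - η ∈ v.asIdeal
  · obtain ⟨x, hx⟩ := h4
    refine Or.inr (Or.inl ⟨h2, h3, x, ?_⟩)
    have := v.asIdeal.neg_mem hx
    rwa [neg_sub] at this
  · refine Or.inl ⟨h1, fun h => h2 ?_, h4⟩
    rw [← h]
    exact Ideal.absNorm_mem v.asIdeal

variable (K)

/-- the split primes of a finite set contribute at most `(1/p) log ζ_M(s)`. -/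
theorem sum_split_le {p : ℕ} (η : 𝓞 K)
    (φ : {v : HeightOneSpectrum (𝓞 K) // (p : 𝓞 K) ∉ v.asIdeal ∧ η ∉ v.asIdeal ∧
      ∃ y : 𝓞 K, η - y ^ p ∈ v.asIdeal} × Fin p → HeightOneSpectrum (𝓞 M))
    (hφ : Function.Injective φ)
    (hφN : ∀ x, Ideal.absNorm (φ x).asIdeal = Ideal.absNorm x.1.1.asIdeal)
    {s : ℝ} (hs : 1 < s) (T : Finset (HeightOneSpectrum (𝓞 K))) [DecidablePred (Split K p η)] :
    (p : ℝ) * ∑ v ∈ T with Split K p η v, (Ideal.absNorm v.asIdeal : ℝ) ^ (-s) ≤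
      Real.log (zetaR M s) := by
  classical
  have h := sum_prime_le_log_zetaR M
    (((T.subtype (Split K p η)) ×ˢ (Finset.univ : Finset (Fin p))).map ⟨φ, hφ⟩) hs
  rw [Finset.sum_map] at h
  simp only [Function.Embedding.coeFn_mk, hφN] at h
  rw [Finset.sum_product] at h
  simp only [Finset.sum_const, Finset.card_univ, Fintype.card_fin, nsmul_eq_mul] at h
  rw [← Finset.mul_sum] at h
  rw [Finset.sum_subtype_eq_sum_filter (f := fun v : HeightOneSpectrum (𝓞 K) =>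
    (Ideal.absNorm v.asIdeal : ℝ) ^ (-s))] at h
  convert h using 3

/-- a finite sum over primes dividing a fixed nonzero ideal is bounded by their number. -/
theorem sum_dvd_le {I : Ideal (𝓞 K)} (hI : {v : HeightOneSpectrum (𝓞 K) | v.asIdeal ∣ I}.Finite)
    {s : ℝ} (hs : 1 < s) (T : Finset (HeightOneSpectrum (𝓞 K)))
    [DecidablePred fun v : HeightOneSpectrum (𝓞 K) => v.asIdeal ∣ I] :
    ∑ v ∈ T with v.asIdeal ∣ I, (Ideal.absNorm v.asIdeal : ℝ) ^ (-s) ≤ (hI.toFinset.card : ℝ) := by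
  classical
  have h1 : ∑ v ∈ T with v.asIdeal ∣ I, (Ideal.absNorm v.asIdeal : ℝ) ^ (-s) ≤
      ∑ v ∈ T with v.asIdeal ∣ I, (1 : ℝ) :=
    Finset.sum_le_sum fun v _ => (prime_rpow_le_half K v hs.le).trans (by norm_num)
  have h2 : (T.filter fun v => v.asIdeal ∣ I) ⊆ hI.toFinset := by
    intro v hv
    rw [Set.Finite.mem_toFinset]
    exact (Finset.mem_filter.mp hv).2
  have h3 := Finset.card_le_card h2
  rw [Finset.sum_const, nsmul_eq_mul, mul_one] at h1
  exact h1.trans (by exact_mod_cast h3)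

/-- The key inequality: `(p - 1) log ζ_K(s) ≤ log ζ_M(s) + C` on `(1, 2]`. -/
theorem key_ineq {p : ℕ} (hp : p.Prime) (η : 𝓞 K) (hη0 : η ≠ 0)
    (χ : ClassGroup (𝓞 K) →* ℂˣ) (hχ : χ ≠ 1) (hχp : χ ^ p = 1)
    (hgood : ∀ c ∈ S14T.goodClasses p K η, χ c = 1)
    (φ : {v : HeightOneSpectrum (𝓞 K) // (p : 𝓞 K) ∉ v.asIdeal ∧ η ∉ v.asIdeal ∧
      ∃ y : 𝓞 K, η - y ^ p ∈ v.asIdeal} × Fin p → HeightOneSpectrum (𝓞 M))
    (hφ : Function.Injective φ)
    (hφN : ∀ x, Ideal.absNorm (φ x).asIdeal = Ideal.absNorm x.1.1.asIdeal)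
    (hB : ∀ j : ℕ, χ ^ j ≠ 1 → ∃ B : ℝ, ∀ s : ℝ, 1 < s → s ≤ 2 → ‖classL K (χ ^ j) s‖ ≤ B) :
    ∃ C : ℝ, ∀ s : ℝ, 1 < s → s ≤ 2 →
      ((p : ℝ) - 1) * Real.log (zetaR K s) ≤ Real.log (zetaR M s) + C := by
  classical
  obtain ⟨D, hD1, hD⟩ := norm_prod_classL_le K hp χ hχ hχp hB
  obtain ⟨c, hc⟩ := log_zetaR_le K
  have hp0 : (0 : ℝ) < p := by exact_mod_cast hp.pos
  have hpne : Ideal.span {(p : 𝓞 K)} ≠ 0 := by
    rw [Ideal.zero_eq_bot, Ne, Ideal.span_singleton_eq_bot]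
    exact_mod_cast hp.ne_zero
  have hηne : Ideal.span {η} ≠ 0 := by
    rw [Ideal.zero_eq_bot, Ne, Ideal.span_singleton_eq_bot]
    exact hη0
  have hfinp := Ideal.finite_factors hpne
  have hfinη := Ideal.finite_factors hηne
  refine ⟨Real.log D + p * (S14Z.c1 K + hfinp.toFinset.card + hfinη.toFinset.card + c),
    fun s hs hs2 => ?_⟩
  have hζK := zetaR_pos K hs
  -- good primes
  have hgoodT : ∀ T : Finset (HeightOneSpectrum (𝓞 K)),
      (p : ℝ) * ∑ v ∈ T with Good K p η v, (Ideal.absNorm v.asIdeal : ℝ) ^ (-s) ≤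
        Real.log (zetaR K s) + Real.log D := by
    intro T
    have h1 := exp_le_norm_prod_classL K hp χ hχp hs (T.filter (Good K p η))
      (fun v hv => hgood _ (good_mem_goodClasses (Finset.mem_filter.mp hv).2))
    have h3 := h1.trans (hD s hs hs2)
    calc (p : ℝ) * ∑ v ∈ T with Good K p η v, (Ideal.absNorm v.asIdeal : ℝ) ^ (-s)
        = Real.log (Real.exp ((p : ℝ) * ∑ v ∈ T with Good K p η v,
            (Ideal.absNorm v.asIdeal : ℝ) ^ (-s))) := (Real.log_exp _).symm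
      _ ≤ Real.log (zetaR K s * D) := Real.log_le_log (Real.exp_pos _) h3
      _ = Real.log (zetaR K s) + Real.log D := Real.log_mul hζK.ne' (by positivity)
  -- all primes of a finite set
  have hT : ∀ T : Finset (HeightOneSpectrum (𝓞 K)),
      ∑ v ∈ T, (Ideal.absNorm v.asIdeal : ℝ) ^ (-s) ≤
        (Real.log (zetaR K s) + Real.log D) / p + Real.log (zetaR M s) / p + S14Z.c1 K +
          hfinp.toFinset.card + hfinη.toFinset.card := by
    intro T
    have hdec : ∑ v ∈ T, (Ideal.absNorm v.asIdeal : ℝ) ^ (-s) ≤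
        ∑ v ∈ T with Good K p η v, (Ideal.absNorm v.asIdeal : ℝ) ^ (-s) +
        ∑ v ∈ T with Split K p η v, (Ideal.absNorm v.asIdeal : ℝ) ^ (-s) +
        ∑ v ∈ T with ¬ (Ideal.absNorm v.asIdeal).Prime, (Ideal.absNorm v.asIdeal : ℝ) ^ (-s) +
        ∑ v ∈ T with v.asIdeal ∣ Ideal.span {(p : 𝓞 K)}, (Ideal.absNorm v.asIdeal : ℝ) ^ (-s) +
        ∑ v ∈ T with v.asIdeal ∣ Ideal.span {η}, (Ideal.absNorm v.asIdeal : ℝ) ^ (-s) := by
      simp only [Finset.sum_filter, ← Finset.sum_add_distrib]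
      refine Finset.sum_le_sum fun v _ => ?_
      have h0 := prime_rpow_nonneg K v s
      have hi : ∀ (P : Prop) [Decidable P],
          0 ≤ if P then (Ideal.absNorm v.asIdeal : ℝ) ^ (-s) else 0 := by
        intro P _; split_ifs <;> simp [h0]
      have e1 := hi (Good K p η v)
      have e2 := hi (Split K p η v)
      have e3 := hi (¬ (Ideal.absNorm v.asIdeal).Prime)
      have e4 := hi (v.asIdeal ∣ Ideal.span {(p : 𝓞 K)})
      have e5 := hi (v.asIdeal ∣ Ideal.span {η})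
      rcases prime_cases p η v with h | h | h | h | h
      · rw [if_pos h] at e1 ⊢; linarith
      · rw [if_pos h] at e2 ⊢; linarith
      · rw [if_pos h] at e3 ⊢; linarith
      · rw [if_pos h] at e4 ⊢; linarith
      · rw [if_pos h] at e5 ⊢; linarith
    have b1 : ∑ v ∈ T with Good K p η v, (Ideal.absNorm v.asIdeal : ℝ) ^ (-s) ≤
        (Real.log (zetaR K s) + Real.log D) / p := by
      rw [le_div_iff₀ hp0, mul_comm]; exact hgoodT T
    have b2 : ∑ v ∈ T with Split K p η v, (Ideal.absNorm v.asIdeal : ℝ) ^ (-s) ≤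
        Real.log (zetaR M s) / p := by
      rw [le_div_iff₀ hp0, mul_comm]; exact sum_split_le K M η φ hφ hφN hs T
    have b3 := S14Z.sum_nonPrimeNorm_rpow_le K hs.le T
    have b4 := sum_dvd_le K hfinp hs T
    have b5 := sum_dvd_le K hfinη hs T
    linarith
  have htsum : ∑' v : HeightOneSpectrum (𝓞 K), (Ideal.absNorm v.asIdeal : ℝ) ^ (-s) ≤
      (Real.log (zetaR K s) + Real.log D) / p + Real.log (zetaR M s) / p + S14Z.c1 K +
          hfinp.toFinset.card + hfinη.toFinset.card :=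
    Real.tsum_le_of_sum_le (fun v => prime_rpow_nonneg K v s) hT
  have hlog := hc s hs
  have hmain : Real.log (zetaR K s) ≤
      (Real.log (zetaR K s) + Real.log D) / p + Real.log (zetaR M s) / p + S14Z.c1 K +
          hfinp.toFinset.card + hfinη.toFinset.card + c := by linarith
  have h5 : (p : ℝ) * Real.log (zetaR K s) ≤
      (Real.log (zetaR K s) + Real.log D) + Real.log (zetaR M s) +
        p * (S14Z.c1 K + hfinp.toFinset.card + hfinη.toFinset.card + c) := by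
    have := mul_le_mul_of_nonneg_left hmain hp0.le
    have e : (p : ℝ) * ((Real.log (zetaR K s) + Real.log D) / p + Real.log (zetaR M s) / p +
        S14Z.c1 K + hfinp.toFinset.card + hfinη.toFinset.card + c) =
        (Real.log (zetaR K s) + Real.log D) + Real.log (zetaR M s) +
        p * (S14Z.c1 K + hfinp.toFinset.card + hfinη.toFinset.card + c) := by
      field_simp
      ring
    rw [e] at this
    exact this
  linarith

end Key

/-! ### The contradiction with the simple poles -/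

/-- the key inequality contradicts the simple poles of `ζ_K` and `ζ_M`. -/
theorem not_key_ineq (K M : Type*) [Field K] [NumberField K] [Field M] [NumberField M] {p : ℕ}
    (h3 : 3 ≤ p) (C : ℝ)
    (h : ∀ s : ℝ, 1 < s → s ≤ 2 →
      ((p : ℝ) - 1) * Real.log (zetaR K s) ≤ Real.log (zetaR M s) + C) : False := by
  obtain ⟨c, C₁, hc, hK⟩ := zetaR_pole K
  obtain ⟨c', C', hc', hM⟩ := zetaR_pole M
  set R : ℝ := Real.log C' + C - ((p : ℝ) - 1) * Real.log c with hR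
  set δ : ℝ := min 1 (Real.exp (-(|R| + 1))) with hδ
  have hδ0 : 0 < δ := lt_min one_pos (Real.exp_pos _)
  have hmem : Set.Ioo (1 : ℝ) (1 + δ) ∈ 𝓝[>] (1 : ℝ) := Ioo_mem_nhdsGT (by linarith)
  obtain ⟨s, ⟨⟨hKs, -⟩, ⟨-, hMs⟩⟩, hs1, hsδ⟩ := ((hK.and hM).and hmem).exists
  have hs2 : s ≤ 2 := by
    have := min_le_left 1 (Real.exp (-(|R| + 1)))
    linarith
  have ht : 0 < s - 1 := by linarith
  have hζM := one_le_zetaR M hs1
  have hC' : 0 < C' := by
    have h1 : 0 < C' / (s - 1) := lt_of_lt_of_le one_pos (hζM.trans hMs)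
    have := mul_pos h1 ht
    rwa [div_mul_cancel₀ _ ht.ne'] at this
  have hlogK : Real.log c - Real.log (s - 1) ≤ Real.log (zetaR K s) := by
    rw [← Real.log_div hc.ne' ht.ne']
    exact Real.log_le_log (div_pos hc ht) hKs
  have hlogM : Real.log (zetaR M s) ≤ Real.log C' - Real.log (s - 1) := by
    rw [← Real.log_div hC'.ne' ht.ne']
    exact Real.log_le_log (zetaR_pos M hs1) hMs
  have hlt : Real.log (s - 1) < -(|R| + 1) := by
    rw [Real.log_lt_iff_lt_exp ht]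
    have := min_le_right 1 (Real.exp (-(|R| + 1)))
    linarith
  have hp3 : (3 : ℝ) ≤ p := by exact_mod_cast h3
  have hmain := h s hs1 hs2
  have h1 : ((p : ℝ) - 1) * (Real.log c - Real.log (s - 1)) ≤
      ((p : ℝ) - 1) * Real.log (zetaR K s) :=
    mul_le_mul_of_nonneg_left hlogK (by linarith)
  have hRle := le_abs_self R
  have hRabs := abs_nonneg R
  -- `(p - 2) · (-log (s-1)) ≤ R`
  have h2 : ((p : ℝ) - 2) * (-Real.log (s - 1)) ≤ R := by
    rw [hR]; nlinarith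
  have h4 : |R| + 1 < -Real.log (s - 1) := by linarith
  nlinarith

/-- **The analytic core** (hypothesis form). -/
theorem gen_core (K : Type) [Field K] [NumberField K] {p : ℕ} (hp : p.Prime) (h3 : 3 ≤ p)
    (η : 𝓞 K) (hη0 : η ≠ 0)
    (χ : ClassGroup (𝓞 K) →* ℂˣ) (hχ : χ ≠ 1) (hχp : χ ^ p = 1)
    (hgood : ∀ c ∈ S14T.goodClasses p K η, χ c = 1)
    (M : Type*) [Field M] [NumberField M]
    (φ : {v : HeightOneSpectrum (𝓞 K) // (p : 𝓞 K) ∉ v.asIdeal ∧ η ∉ v.asIdeal ∧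
      ∃ y : 𝓞 K, η - y ^ p ∈ v.asIdeal} × Fin p → HeightOneSpectrum (𝓞 M))
    (hφ : Function.Injective φ)
    (hφN : ∀ x, Ideal.absNorm (φ x).asIdeal = Ideal.absNorm x.1.1.asIdeal)
    (hB : ∀ j : ℕ, χ ^ j ≠ 1 → ∃ B : ℝ, ∀ s : ℝ, 1 < s → s ≤ 2 → ‖classL K (χ ^ j) s‖ ≤ B) :
    False := by
  obtain ⟨C, hC⟩ := key_ineq K M hp η hη0 χ hχ hχp hgood φ hφ hφN hB
  exact not_key_ineq K M h3 C hC

/-! ### From the core to `GenStatement` -/

/-- a proper subgroup of a finite abelian group is killed by a nontrivial character. -/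
theorem exists_char_of_ne_top {G : Type*} [CommGroup G] [Finite G] (H : Subgroup G)
    (hH : H ≠ ⊤) : ∃ χ : G →* ℂˣ, χ ≠ 1 ∧ ∀ h ∈ H, χ h = 1 := by
  obtain ⟨a, ha⟩ : ∃ a, a ∉ H := by
    by_contra h
    exact hH (eq_top_iff.mpr fun x _ => by_contra fun hx => h ⟨x, hx⟩)
  have hne : (QuotientGroup.mk a : G ⧸ H) ≠ 1 := by
    rwa [Ne, QuotientGroup.eq_one_iff]
  have : NeZero (Monoid.exponent (G ⧸ H)) := ⟨Monoid.exponent_ne_zero_of_finite⟩
  obtain ⟨ψ, hψ⟩ := CommGroup.exists_apply_ne_one_of_hasEnoughRootsOfUnity (G ⧸ H) ℂ hne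
  refine ⟨ψ.comp (QuotientGroup.mk' H), fun h => hψ ?_, fun h hh => ?_⟩
  · have := congrArg (fun χ : G →* ℂˣ => χ a) h
    simpa using this
  · simp [(QuotientGroup.eq_one_iff h).mpr hh]

/-- The deliverable of block [S] ((S-pack), helper82 #764): the Kummer field `M = K(η^{1/p})`
together with a norm preserving injection of `(split primes) × Fin p` into the primes of `M`. -/
def SplitPack : Prop :=
  ∀ (K : Type) [Field K] [NumberField K] (p : ℕ), p.Prime → (∃ ζ : K, IsPrimitiveRoot ζ p) →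
    ∀ η : 𝓞 K, (∀ b : K, b ^ p ≠ (η : K)) →
      ∃ (M : Type) (_ : Field M) (_ : NumberField M)
        (φ : {v : HeightOneSpectrum (𝓞 K) // (p : 𝓞 K) ∉ v.asIdeal ∧ η ∉ v.asIdeal ∧
          ∃ y : 𝓞 K, η - y ^ p ∈ v.asIdeal} × Fin p → HeightOneSpectrum (𝓞 M)),
        Function.Injective φ ∧ ∀ x, Ideal.absNorm (φ x).asIdeal = Ideal.absNorm x.1.1.asIdeal

/-- The deliverable of block [An2]: class `L`-functions of nontrivial characters are bounded on
`(1, 2]`. -/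
def ClassLBounded : Prop :=
  ∀ (K : Type) [Field K] [NumberField K] (χ : ClassGroup (𝓞 K) →* ℂˣ), χ ≠ 1 →
    ∃ B : ℝ, ∀ s : ℝ, 1 < s → s ≤ 2 → ‖classL K χ s‖ ≤ B

/-- **(G-an)** in hypothesis form: (S-pack) and the boundedness of class `L`-functions imply the
generation statement of `S14T/Plan.lean`. -/
theorem genStatement_of (hS : SplitPack) (hB : ClassLBounded) : S14T.GenStatement := by
  intro K _ _ p hp h3 hζ η hη
  by_contra hne
  obtain ⟨χ, hχ, hχH⟩ := exists_char_of_ne_top _ hne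
  have hχp : χ ^ p = 1 := by
    refine MonoidHom.ext fun c => ?_
    have hmem : c ^ p ∈ Subgroup.closure (S14T.goodClasses p K η) ⊔
        (powMonoidHom p : ClassGroup (𝓞 K) →* ClassGroup (𝓞 K)).range :=
      Subgroup.mem_sup_right ⟨c, rfl⟩
    have := hχH _ hmem
    simpa [map_pow] using this
  have hgood : ∀ c ∈ S14T.goodClasses p K η, χ c = 1 := fun c hc =>
    hχH c (Subgroup.mem_sup_left (Subgroup.subset_closure hc))
  have hη0 : η ≠ 0 := by
    rintro rfl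
    exact hη ⟨0, by simp [hp.ne_zero]⟩
  obtain ⟨M, _, _, φ, hφ, hφN⟩ := hS K p hp hζ η (fun b hb => hη ⟨b, hb⟩)
  exact gen_core K hp h3 η hη0 χ hχ hχp hgood M φ hφ hφN (fun j hj => hB K (χ ^ j) hj)

end Fermat.Agent.S14A.GenAn
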