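/-
S14A (P6), hypothesis-form core (helper12).

`classL K χ s` is bounded on `(1,2]` for a nontrivial class group character `χ`, GIVEN the
outputs of (P2) (`S_eq_classZeta`, `summable_G_iff`) and of helper3's blocks (`summable_G`,
`S_asymp`) as hypotheses.  The instantiation with the real theorems is `S14A/ClassLBound.lean`.
Imports only Mathlib and the two frozen definition files.
-/
import Mathlib
import Fermat.Agent.S14A.Defs
import Fermat.Agent.S14T.An2Defs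

set_option autoImplicit false

namespace Fermat.Agent.S14A.ClassLCore

open NumberField NumberField.Units nonZeroDivisors
open Fermat.Agent.S14T.An2

variable (K : Type*) [Field K] [NumberField K]

theorem nrm_nonneg (s : ℝ) (I : (Ideal (𝓞 K))⁰) :
    0 ≤ (Ideal.absNorm (I : Ideal (𝓞 K)) : ℝ) ^ (-s) :=
  Real.rpow_nonneg (Nat.cast_nonneg _) _

/-- class-wise summability from the summability of `G` and the unfolding equivalence. -/
theorem summable_class_of (s : ℝ) (hG : Summable (G K s))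
    (hiff : ∀ J : (Ideal (𝓞 K))⁰,
      Summable (fun a : (J : Ideal (𝓞 K)) => G K s (a : 𝓞 K)) ↔
      Summable (fun I : {I : (Ideal (𝓞 K))⁰ // ClassGroup.mk0 I = (ClassGroup.mk0 J)⁻¹} =>
        (Ideal.absNorm (I.1 : Ideal (𝓞 K)) : ℝ) ^ (-s)))
    (C : ClassGroup (𝓞 K)) :
    Summable (fun I : {I : (Ideal (𝓞 K))⁰ // ClassGroup.mk0 I = C} =>
      (Ideal.absNorm (I.1 : Ideal (𝓞 K)) : ℝ) ^ (-s)) := by
  obtain ⟨J, hJ⟩ := ClassGroup.mk0_surjective C⁻¹
  have hC : C = (ClassGroup.mk0 J)⁻¹ := by rw [hJ, inv_inv]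
  subst hC
  refine (hiff J).mp ?_
  exact hG.comp_injective Subtype.val_injective

/-- summability over all nonzero ideals from class-wise summability. -/
theorem summable_nz_of (s : ℝ)
    (hcl : ∀ C : ClassGroup (𝓞 K),
      Summable (fun I : {I : (Ideal (𝓞 K))⁰ // ClassGroup.mk0 I = C} =>
        (Ideal.absNorm (I.1 : Ideal (𝓞 K)) : ℝ) ^ (-s))) :
    Summable fun I : (Ideal (𝓞 K))⁰ => (Ideal.absNorm (I : Ideal (𝓞 K)) : ℝ) ^ (-s) := by
  classical
  let e := Equiv.sigmaFiberEquiv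
    (ClassGroup.mk0 : (Ideal (𝓞 K))⁰ → ClassGroup (𝓞 K))
  rw [← e.summable_iff]
  refine (summable_sigma_of_nonneg
    (f := (fun I : (Ideal (𝓞 K))⁰ => (Ideal.absNorm (I : Ideal (𝓞 K)) : ℝ) ^ (-s)) ∘ e)
    (fun x => nrm_nonneg K s _)).mpr ⟨fun C => hcl C, ?_⟩
  exact Summable.of_finite

/-- the norm of a value of a character of a finite group is `1`. -/
theorem norm_char_eq_one {G : Type*} [Group G] [Finite G] (χ : G →* ℂˣ) (g : G) :
    ‖((χ g : ℂˣ) : ℂ)‖ = 1 := by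
  have hpos : 0 < orderOf g := orderOf_pos g
  have h1 : ((χ g : ℂˣ) : ℂ) ^ orderOf g = 1 := by
    rw [← Units.val_pow_eq_pow_val, ← map_pow, pow_orderOf_eq_one, map_one, Units.val_one]
  exact Complex.norm_eq_one_of_pow_eq_one h1 hpos.ne'

/-- decomposition of `classL` into partial zeta functions. -/
theorem classL_eq_sum_of (χ : ClassGroup (𝓞 K) →* ℂˣ) (s : ℝ)
    (hs : Summable fun I : (Ideal (𝓞 K))⁰ =>
      (Ideal.absNorm (I : Ideal (𝓞 K)) : ℝ) ^ (-s)) :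
    classL K χ s = ∑ C : ClassGroup (𝓞 K), (χ C : ℂ) * ((classZeta K C s : ℝ) : ℂ) := by
  classical
  let f : (Ideal (𝓞 K))⁰ → ℂ := fun I =>
    (χ (ClassGroup.mk0 I) : ℂ) * (((Ideal.absNorm (I : Ideal (𝓞 K)) : ℝ) ^ (-s) : ℝ) : ℂ)
  have hf : Summable f := by
    refine Summable.of_norm ?_
    refine hs.congr (fun I => ?_)
    simp only [f, norm_mul, norm_char_eq_one, one_mul, Complex.norm_real, Real.norm_eq_abs]
    exact (abs_of_nonneg (nrm_nonneg K s I)).symm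
  let e := Equiv.sigmaFiberEquiv
    (ClassGroup.mk0 : (Ideal (𝓞 K))⁰ → ClassGroup (𝓞 K))
  have hfe : Summable (f ∘ e) := (e.summable_iff).mpr hf
  have h1 : classL K χ s = ∑' x, (f ∘ e) x := by
    show classL K χ s = ∑' x, f (e x)
    rw [e.tsum_eq f]
    rfl
  rw [h1, hfe.tsum_sigma' (fun C => hfe.sigma_factor C), tsum_fintype]
  refine Finset.sum_congr rfl (fun C _ => ?_)
  have h2 : ∀ I : {I : (Ideal (𝓞 K))⁰ // ClassGroup.mk0 I = C},
      (f ∘ e) ⟨C, I⟩ = (χ C : ℂ) *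
        (((Ideal.absNorm (I.1 : Ideal (𝓞 K)) : ℝ) ^ (-s) : ℝ) : ℂ) := by
    intro I
    simp only [Function.comp_apply, f, e, Equiv.sigmaFiberEquiv_apply, I.2]
  simp_rw [h2]
  rw [tsum_mul_left, classZeta, Complex.ofReal_tsum]

/-- (P6) in hypothesis form. -/
theorem classL_bounded_of (χ : ClassGroup (𝓞 K) →* ℂˣ) (hχ : χ ≠ 1)
    (hsumG : ∀ s : ℝ, 1 < s → Summable (G K s))
    (hiff : ∀ (J : (Ideal (𝓞 K))⁰) (s : ℝ),
      Summable (fun a : (J : Ideal (𝓞 K)) => G K s (a : 𝓞 K)) ↔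
      Summable (fun I : {I : (Ideal (𝓞 K))⁰ // ClassGroup.mk0 I = (ClassGroup.mk0 J)⁻¹} =>
        (Ideal.absNorm (I.1 : Ideal (𝓞 K)) : ℝ) ^ (-s)))
    (hunf : ∀ (J : (Ideal (𝓞 K))⁰) (s : ℝ),
      S K (J : Ideal (𝓞 K)) s =
        (torsionOrder K : ℝ) * (Ideal.absNorm (J : Ideal (𝓞 K)) : ℝ) ^ (-s) *
          classZeta K (ClassGroup.mk0 J)⁻¹ s)
    (hasymp : ∀ J : Ideal (𝓞 K), J ≠ ⊥ → ∃ B : ℝ, ∀ s : ℝ, 1 < s → s ≤ 2 →
      |(Ideal.absNorm J : ℝ) ^ s * S K J s - S K ⊤ s| ≤ B) :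
    ∃ B : ℝ, ∀ s : ℝ, 1 < s → s ≤ 2 → ‖classL K χ s‖ ≤ B := by
  classical
  -- representatives of the inverse classes
  have hrep : ∀ C : ClassGroup (𝓞 K), ∃ J : (Ideal (𝓞 K))⁰, ClassGroup.mk0 J = C⁻¹ :=
    fun C => ClassGroup.mk0_surjective C⁻¹
  choose J hJ using hrep
  have hJne : ∀ C, ((J C : (Ideal (𝓞 K))⁰) : Ideal (𝓞 K)) ≠ ⊥ := fun C =>
    nonZeroDivisors.coe_ne_zero (J C)
  have hB : ∀ C : ClassGroup (𝓞 K), ∃ B : ℝ, ∀ s : ℝ, 1 < s → s ≤ 2 →
      |(Ideal.absNorm ((J C : (Ideal (𝓞 K))⁰) : Ideal (𝓞 K)) : ℝ) ^ s *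
        S K ((J C : (Ideal (𝓞 K))⁰) : Ideal (𝓞 K)) s - S K ⊤ s| ≤ B :=
    fun C => hasymp _ (hJne C)
  choose B hB using hB
  set w : ℝ := (torsionOrder K : ℝ) with hw
  have hwpos : 0 < w := by
    rw [hw]; exact_mod_cast torsionOrder_pos K
  refine ⟨(∑ C : ClassGroup (𝓞 K), B C) / w, fun s hs1 hs2 => ?_⟩
  -- summability
  have hcl := summable_class_of K s (hsumG s hs1) (fun J => hiff J s)
  have hnz := summable_nz_of K s hcl
  rw [classL_eq_sum_of K χ s hnz]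
  -- the key estimate class by class
  have hkey : ∀ C : ClassGroup (𝓞 K), |w * classZeta K C s - S K ⊤ s| ≤ B C := by
    intro C
    have h1 := hB C s hs1 hs2
    have h2 := hunf (J C) s
    rw [hJ C, inv_inv] at h2
    have hNpos : (0 : ℝ) < (Ideal.absNorm ((J C : (Ideal (𝓞 K))⁰) : Ideal (𝓞 K)) : ℝ) := by
      have : Ideal.absNorm ((J C : (Ideal (𝓞 K))⁰) : Ideal (𝓞 K)) ≠ 0 := by
        rw [Ne, Ideal.absNorm_eq_zero_iff]
        exact hJne C
      exact_mod_cast Nat.pos_of_ne_zero this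
    have h3 : (Ideal.absNorm ((J C : (Ideal (𝓞 K))⁰) : Ideal (𝓞 K)) : ℝ) ^ s *
        S K ((J C : (Ideal (𝓞 K))⁰) : Ideal (𝓞 K)) s = w * classZeta K C s := by
      rw [h2, Real.rpow_neg hNpos.le]
      have hne : (Ideal.absNorm ((J C : (Ideal (𝓞 K))⁰) : Ideal (𝓞 K)) : ℝ) ^ s ≠ 0 :=
        (Real.rpow_pos_of_pos hNpos s).ne'
      field_simp
    rw [h3] at h1
    exact h1
  -- the character sum vanishes
  have hsum0 : ∑ C : ClassGroup (𝓞 K), ((χ C : ℂˣ) : ℂ) = 0 := by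
    have hne : (Units.coeHom ℂ).comp χ ≠ 1 := by
      intro h
      apply hχ
      ext g
      have := DFunLike.congr_fun h g
      simpa using this
    have := sum_hom_units_eq_zero ((Units.coeHom ℂ).comp χ) hne
    simpa using this
  have hrew : ∑ C : ClassGroup (𝓞 K), ((χ C : ℂˣ) : ℂ) * ((classZeta K C s : ℝ) : ℂ)
      = ∑ C : ClassGroup (𝓞 K), ((χ C : ℂˣ) : ℂ) *
          (((classZeta K C s - S K ⊤ s / w : ℝ)) : ℂ) := by
    have : ∑ C : ClassGroup (𝓞 K), ((χ C : ℂˣ) : ℂ) * (((classZeta K C s - S K ⊤ s / w : ℝ)) : ℂ)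
        = ∑ C : ClassGroup (𝓞 K), ((χ C : ℂˣ) : ℂ) * ((classZeta K C s : ℝ) : ℂ)
          - (∑ C : ClassGroup (𝓞 K), ((χ C : ℂˣ) : ℂ)) * ((S K ⊤ s / w : ℝ) : ℂ) := by
      rw [Finset.sum_mul, ← Finset.sum_sub_distrib]
      refine Finset.sum_congr rfl (fun C _ => ?_)
      push_cast
      ring
    rw [this, hsum0, zero_mul, sub_zero]
  rw [hrew]
  calc ‖∑ C : ClassGroup (𝓞 K), ((χ C : ℂˣ) : ℂ) *
          (((classZeta K C s - S K ⊤ s / w : ℝ)) : ℂ)‖
      ≤ ∑ C : ClassGroup (𝓞 K), ‖((χ C : ℂˣ) : ℂ) *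
          (((classZeta K C s - S K ⊤ s / w : ℝ)) : ℂ)‖ := norm_sum_le _ _
    _ = ∑ C : ClassGroup (𝓞 K), |classZeta K C s - S K ⊤ s / w| := by
        refine Finset.sum_congr rfl (fun C _ => ?_)
        rw [norm_mul, norm_char_eq_one, one_mul, Complex.norm_real, Real.norm_eq_abs]
    _ ≤ ∑ C : ClassGroup (𝓞 K), B C / w := by
        refine Finset.sum_le_sum (fun C _ => ?_)
        have h := hkey C
        have : classZeta K C s - S K ⊤ s / w = (w * classZeta K C s - S K ⊤ s) / w := by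
          field_simp
        rw [this, abs_div, abs_of_pos hwpos]
        exact div_le_div_of_nonneg_right h hwpos.le
    _ = (∑ C : ClassGroup (𝓞 K), B C) / w := by rw [Finset.sum_div]

end Fermat.Agent.S14A.ClassLCore
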