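/-
S14A [An3] core (helper4): the Euler-factor comparison
  `zetaR K ^ p ≤ C · ‖∏_{j<p} classL (χ^j)‖ · zetaR M`
and the resulting contradiction, in hypothesis form: the inputs `classL_bounded` and the
splitting pack are hypotheses here; `GenStatement.lean` plugs in the real theorems.
-/
import Mathlib
import Fermat.Agent.S14A.Defs
import Fermat.Agent.S14A.ZetaIdeal
import Fermat.Agent.S14Z.NonPrimeNorm
import Fermat.Agent.S14T.Plan

set_option autoImplicit false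

namespace Fermat.Agent.S14A.Gen

open NumberField IsDedekindDomain Filter Topology
open scoped nonZeroDivisors
open Fermat.Agent.S14A

/-! ### Generalities on infinite products of real numbers `≥ 1` -/

theorem real_le_of_hasProd {ι : Type*} {f : ι → ℝ} {a R : ℝ} (hf : HasProd f a)
    (h : ∀ T : Finset ι, ∏ i ∈ T, f i ≤ R) : a ≤ R := by
  have ht : Tendsto (fun s : Finset ι => ∏ b ∈ s, f b) atTop (𝓝 a) := hf
  exact le_of_tendsto' ht h

theorem norm_prod_le_of_hasProd_ofReal {ι : Type*} {f : ι → ℝ} {Z : ℂ}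
    (hf : HasProd (fun i => ((f i : ℝ) : ℂ)) Z) (h1 : ∀ i, 1 ≤ f i) (T : Finset ι) :
    ∏ i ∈ T, f i ≤ ‖Z‖ := by
  have ht : Tendsto (fun s : Finset ι => ∏ b ∈ s, ((f b : ℝ) : ℂ)) atTop (𝓝 Z) := hf
  have ht2 : Tendsto (fun s : Finset ι => ∏ b ∈ s, f b) atTop (𝓝 ‖Z‖) := by
    have := (continuous_norm.tendsto Z).comp ht
    refine this.congr fun s => ?_
    simp only [Function.comp]
    rw [← Complex.ofReal_prod, Complex.norm_real, Real.norm_of_nonneg]
    exact Finset.prod_nonneg fun i _ => zero_le_one.trans (h1 i)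
  refine ge_of_tendsto ht2 (eventually_atTop.2 ⟨T, fun T' hT' => ?_⟩)
  exact Finset.prod_le_prod_of_subset_of_one_le hT' (fun i _ => zero_le_one.trans (h1 i))
    (fun i _ _ => h1 i)

/-! ### Elementary facts on Euler factors -/

theorem one_le_inv_one_sub {x : ℝ} (h0 : 0 ≤ x) (h1 : x < 1) : 1 ≤ (1 - x)⁻¹ := by
  rw [one_le_inv₀ (by linarith)]; linarith

theorem inv_one_sub_le_two {x : ℝ} (h1 : x ≤ 1 / 2) : (1 - x)⁻¹ ≤ 2 := by
  rw [inv_le_comm₀ (by linarith) (by norm_num)]; linarith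

/-! ### Roots of unity and characters -/

open Polynomial in
theorem prod_sub_pow_primitive {p : ℕ} (hp : 0 < p) {ω : ℂ} (hω : IsPrimitiveRoot ω p) (y : ℂ) :
    ∏ j ∈ Finset.range p, (y - ω ^ j) = y ^ p - 1 := by
  classical
  have : NeZero p := ⟨hp.ne'⟩
  have h1 := X_pow_sub_one_eq_prod hp hω
  have h2 : nthRootsFinset p (1 : ℂ) = (Finset.range p).image (fun j => ω ^ j) := by
    ext z
    simp only [Finset.mem_image, Finset.mem_range]
    rw [mem_nthRootsFinset hp]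
    constructor
    · intro hz
      obtain ⟨i, hi, rfl⟩ := hω.eq_pow_of_pow_eq_one hz
      exact ⟨i, hi, rfl⟩
    · rintro ⟨i, _, rfl⟩
      rw [← pow_mul, mul_comm, pow_mul, hω.pow_eq_one, one_pow]
  rw [h2, Finset.prod_image] at h1
  · have := congrArg (Polynomial.eval y) h1
    simp only [eval_sub, eval_pow, eval_X, eval_one, eval_prod, eval_C] at this
    exact this.symm
  · intro i hi j hj hij
    exact hω.pow_inj (Finset.mem_range.mp hi) (Finset.mem_range.mp hj) hij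

/-- root-of-unity Euler factor: for `ω^p = 1`, `∏_{j<p} (1 - ω^j x)` is `(1-x)^p` or `1 - x^p`. -/
theorem prod_one_sub_pow_mul {p : ℕ} (hp : p.Prime) (ω : ℂ) (hω : ω ^ p = 1) (x : ℂ) :
    ∏ j ∈ Finset.range p, (1 - ω ^ j * x) = if ω = 1 then (1 - x) ^ p else 1 - x ^ p := by
  split_ifs with h1
  · subst h1; simp
  · have hprim : IsPrimitiveRoot ω p := by
      have hdvd : orderOf ω ∣ p := orderOf_dvd_of_pow_eq_one hω
      rcases (Nat.dvd_prime hp).mp hdvd with h | h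
      · exact absurd (orderOf_eq_one_iff.mp h) h1
      · rw [← h]; exact IsPrimitiveRoot.orderOf ω
    by_cases hx : x = 0
    · subst hx; simp [hp.ne_zero]
    · have key := prod_sub_pow_primitive hp.pos hprim x⁻¹
      have : ∏ j ∈ Finset.range p, (1 - ω ^ j * x) =
          x ^ p * ∏ j ∈ Finset.range p, (x⁻¹ - ω ^ j) := by
        rw [← Finset.card_range p, ← Finset.prod_const, Finset.card_range,
          ← Finset.prod_mul_distrib]
        refine Finset.prod_congr rfl fun j _ => ?_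
        field_simp
      rw [this, key, mul_sub, mul_one, ← mul_pow, mul_inv_cancel₀ hx, one_pow]

/-- a proper subgroup of a finite abelian group is killed by a nontrivial character. -/
theorem exists_char_of_ne_top {G : Type*} [CommGroup G] [Finite G] (H : Subgroup G)
    (hH : H ≠ ⊤) : ∃ χ : G →* ℂˣ, χ ≠ 1 ∧ ∀ h ∈ H, χ h = 1 := by
  obtain ⟨g, hg⟩ : ∃ g : G, g ∉ H := by
    by_contra hcon
    exact hH (eq_top_iff.mpr fun x _ => by_contra fun hx => hcon ⟨x, hx⟩)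
  have hne : (QuotientGroup.mk g : G ⧸ H) ≠ 1 := by
    rwa [ne_eq, QuotientGroup.eq_one_iff]
  obtain ⟨φ, hφ⟩ := CommGroup.exists_apply_ne_one_of_hasEnoughRootsOfUnity (G ⧸ H) ℂ hne
  refine ⟨φ.comp (QuotientGroup.mk' H), ?_, ?_⟩
  · intro h
    apply hφ
    have := DFunLike.congr_fun h g
    simpa using this
  · intro h hh
    simp [(QuotientGroup.eq_one_iff h).mpr hh]


/-! ### The Euler factor of `∏_{j<p} classL (χ^j)` -/

section zlower

variable {K : Type*} [Field K] [NumberField K]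

/-- `x_v = N(v)^(-s)`. -/
noncomputable abbrev xv (s : ℝ) (v : HeightOneSpectrum (𝓞 K)) : ℝ :=
  (Ideal.absNorm v.asIdeal : ℝ) ^ (-s)

theorem xv_nonneg (s : ℝ) (v : HeightOneSpectrum (𝓞 K)) : 0 ≤ xv s v :=
  prime_rpow_nonneg K v s

theorem xv_lt_one {s : ℝ} (hs : 1 ≤ s) (v : HeightOneSpectrum (𝓞 K)) : xv s v < 1 :=
  (prime_rpow_le_half K v hs).trans_lt (by norm_num)

/-- the value of a class group character at a prime. -/
noncomputable def chiv (χ : ClassGroup (𝓞 K) →* ℂˣ) (v : HeightOneSpectrum (𝓞 K)) : ℂˣ :=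
  χ (ClassGroup.mk0 ⟨v.asIdeal, mem_nonZeroDivisors_of_ne_zero v.ne_bot⟩)

open scoped Classical in
/-- the real Euler factor of `∏_{j<p} L(s,χ^j)` at `v`. -/
noncomputable def fchi (p : ℕ) (χ : ClassGroup (𝓞 K) →* ℂˣ) (s : ℝ)
    (v : HeightOneSpectrum (𝓞 K)) : ℝ :=
  if chiv χ v = 1 then ((1 - xv s v) ^ p)⁻¹ else (1 - xv s v ^ p)⁻¹

theorem one_le_fchi {p : ℕ} (hp : p ≠ 0) (χ : ClassGroup (𝓞 K) →* ℂˣ) {s : ℝ} (hs : 1 ≤ s)
    (v : HeightOneSpectrum (𝓞 K)) : 1 ≤ fchi p χ s v := by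
  have h0 := xv_nonneg s v
  have h1 := xv_lt_one hs v
  unfold fchi
  split_ifs
  · rw [← inv_pow]
    exact one_le_pow₀ (one_le_inv_one_sub h0 h1)
  · exact one_le_inv_one_sub (pow_nonneg h0 p) (pow_lt_one₀ h0 h1 hp)

theorem fchi_eq_of_chiv_eq_one {p : ℕ} (χ : ClassGroup (𝓞 K) →* ℂˣ) (s : ℝ)
    {v : HeightOneSpectrum (𝓞 K)} (h : chiv χ v = 1) :
    fchi p χ s v = ((1 - xv s v)⁻¹) ^ p := by
  unfold fchi
  rw [if_pos h, inv_pow]

/-- Euler product of `∏_{j<p} classL (χ^j)` with real factors. -/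
theorem hasProd_fchi {p : ℕ} (hp : p.Prime) (χ : ClassGroup (𝓞 K) →* ℂˣ)
    (hχp : ∀ c, χ c ^ p = 1) {s : ℝ} (hs : 1 < s) :
    HasProd (fun v : HeightOneSpectrum (𝓞 K) => ((fchi p χ s v : ℝ) : ℂ))
      (∏ j ∈ Finset.range p, classL K (χ ^ j) s) := by
  have h := hasProd_prod (s := Finset.range p)
    (f := fun (j : ℕ) (v : HeightOneSpectrum (𝓞 K)) =>
      (1 - ((χ ^ j) (ClassGroup.mk0 ⟨v.asIdeal, mem_nonZeroDivisors_of_ne_zero v.ne_bot⟩) : ℂ) *
        (((Ideal.absNorm v.asIdeal : ℝ) ^ (-s) : ℝ) : ℂ))⁻¹)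
    (a := fun j => classL K (χ ^ j) s) (fun j _ => classL_hasProd K (χ ^ j) hs)
  convert h using 1
  funext v
  rw [Finset.prod_inv_distrib]
  have hω : ((chiv χ v : ℂˣ) : ℂ) ^ p = 1 := by
    have := hχp (ClassGroup.mk0 ⟨v.asIdeal, mem_nonZeroDivisors_of_ne_zero v.ne_bot⟩)
    have h2 := congrArg Units.val this
    simpa [chiv] using h2
  have key := prod_one_sub_pow_mul hp (chiv χ v : ℂ) hω ((xv s v : ℝ) : ℂ)
  have hprod : ∏ j ∈ Finset.range p,
      (1 - ((χ ^ j) (ClassGroup.mk0 ⟨v.asIdeal, mem_nonZeroDivisors_of_ne_zero v.ne_bot⟩) : ℂ) *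
        (((Ideal.absNorm v.asIdeal : ℝ) ^ (-s) : ℝ) : ℂ)) =
      ∏ j ∈ Finset.range p, (1 - ((chiv χ v : ℂˣ) : ℂ) ^ j * ((xv s v : ℝ) : ℂ)) := by
    refine Finset.prod_congr rfl fun j _ => ?_
    simp [chiv, MonoidHom.pow_apply]
  rw [hprod, key]
  unfold fchi
  by_cases h1 : chiv χ v = 1
  · rw [if_pos h1, if_pos (by simp [h1])]
    push_cast
    rfl
  · rw [if_neg h1, if_neg (by simpa using h1)]
    push_cast
    rfl

/-- lower bound for `‖∏_{j<p} classL (χ^j)‖` by finite partial products. -/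
theorem prod_fchi_le {p : ℕ} (hp : p.Prime) (χ : ClassGroup (𝓞 K) →* ℂˣ)
    (hχp : ∀ c, χ c ^ p = 1) {s : ℝ} (hs : 1 < s) (T : Finset (HeightOneSpectrum (𝓞 K))) :
    ∏ v ∈ T, fchi p χ s v ≤ ‖∏ j ∈ Finset.range p, classL K (χ ^ j) s‖ :=
  norm_prod_le_of_hasProd_ofReal (hasProd_fchi hp χ hχp hs)
    (fun v => one_le_fchi hp.ne_zero χ hs.le v) T

end zlower

/-! ### The split primes -/

section split

variable {K : Type*} [Field K] [NumberField K] {M : Type*} [Field M] [NumberField M]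

/-- the (S-pack) predicate: `v ∤ p η` and `η` is a `p`-th power residue modulo `v`. -/
def IsSplitP (p : ℕ) (η : 𝓞 K) (v : HeightOneSpectrum (𝓞 K)) : Prop :=
  (p : 𝓞 K) ∉ v.asIdeal ∧ η ∉ v.asIdeal ∧ ∃ y : 𝓞 K, η - y ^ p ∈ v.asIdeal

open scoped Classical in
theorem prod_split_le {p : ℕ} (η : 𝓞 K)
    (φ : {v : HeightOneSpectrum (𝓞 K) // (p : 𝓞 K) ∉ v.asIdeal ∧ η ∉ v.asIdeal ∧
      ∃ y : 𝓞 K, η - y ^ p ∈ v.asIdeal} × Fin p → HeightOneSpectrum (𝓞 M))
    (hφ : Function.Injective φ)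
    (hφN : ∀ x, Ideal.absNorm (φ x).asIdeal = Ideal.absNorm x.1.1.asIdeal)
    {s : ℝ} (hs : 1 < s) (T : Finset (HeightOneSpectrum (𝓞 K))) :
    ∏ v ∈ T with IsSplitP p η v, ((1 - xv s v)⁻¹) ^ p ≤ zetaR M s := by
  have h1 : ∏ v ∈ T with IsSplitP p η v, ((1 - xv s v)⁻¹) ^ p =
      ∏ x ∈ T.subtype (IsSplitP p η), ((1 - xv s x.1)⁻¹) ^ p :=
    (Finset.prod_subtype_eq_prod_filter (s := T) (p := IsSplitP p η)
      (f := fun v => ((1 - xv s v)⁻¹) ^ p)).symm
  have h2 : ∀ x : {v : HeightOneSpectrum (𝓞 K) // IsSplitP p η v},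
      ((1 - xv s x.1)⁻¹) ^ p = ∏ j : Fin p, (1 - xv s (φ (x, j)))⁻¹ := by
    intro x
    have : ∀ j : Fin p, (1 - xv s (φ (x, j)))⁻¹ = (1 - xv s x.1)⁻¹ := by
      intro j
      show (1 - (Ideal.absNorm (φ (x, j)).asIdeal : ℝ) ^ (-s))⁻¹ = _
      rw [hφN (x, j)]
    rw [Finset.prod_congr rfl (fun j _ => this j), Finset.prod_const, Finset.card_univ,
      Fintype.card_fin]
  rw [h1, Finset.prod_congr rfl (fun x _ => h2 x), ← Finset.prod_product'
    (s := T.subtype (IsSplitP p η)) (t := (Finset.univ : Finset (Fin p)))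
    (f := fun x j => (1 - xv s (φ (x, j)))⁻¹)]
  have h3 : ∏ x ∈ (T.subtype (IsSplitP p η)) ×ˢ (Finset.univ : Finset (Fin p)),
      (1 - xv s (φ (x.1, x.2)))⁻¹ =
      ∏ w ∈ ((T.subtype (IsSplitP p η)) ×ˢ (Finset.univ : Finset (Fin p))).image φ,
        (1 - xv s w)⁻¹ := by
    rw [Finset.prod_image (fun a _ b _ hab => hφ hab)]
    exact Finset.prod_congr rfl fun x _ => by rw [Prod.mk.eta]
  rw [h3]
  exact prod_le_zetaR M _ hs

end split

/-! ### The comparison inequality and the contradiction -/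

section assembly

variable {K : Type} [Field K] [NumberField K] {M : Type*} [Field M] [NumberField M]

theorem finite_setOf_mem {a : 𝓞 K} (ha : a ≠ 0) :
    {v : HeightOneSpectrum (𝓞 K) | a ∈ v.asIdeal}.Finite := by
  have h := Ideal.finite_factors (I := Ideal.span {a}) (by simpa using ha)
  refine h.subset fun v hv => ?_
  simpa [Ideal.dvd_span_singleton] using hv

theorem le_mul4 {t a b c d : ℝ} (ha : 1 ≤ a) (hb : 1 ≤ b) (hc : 1 ≤ c) (hd : 1 ≤ d)
    (h : t ≤ a ∨ t ≤ b ∨ t ≤ c ∨ t ≤ d) : t ≤ a * b * c * d := by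
  have hab : 1 ≤ a * b := one_le_mul_of_one_le_of_one_le ha hb
  have habc : 1 ≤ a * b * c := one_le_mul_of_one_le_of_one_le hab hc
  rcases h with h | h | h | h
  · calc t ≤ a := h
      _ ≤ a * b := le_mul_of_one_le_right (by linarith) hb
      _ ≤ a * b * c := le_mul_of_one_le_right (by linarith) hc
      _ ≤ a * b * c * d := le_mul_of_one_le_right (by linarith) hd
  · calc t ≤ b := h
      _ ≤ a * b := le_mul_of_one_le_left (by linarith) ha
      _ ≤ a * b * c := le_mul_of_one_le_right (by linarith) hc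
      _ ≤ a * b * c * d := le_mul_of_one_le_right (by linarith) hd
  · calc t ≤ c := h
      _ ≤ a * b * c := le_mul_of_one_le_left (by linarith) hab
      _ ≤ a * b * c * d := le_mul_of_one_le_right (by linarith) hd
  · calc t ≤ d := h
      _ ≤ a * b * c * d := le_mul_of_one_le_left (by linarith) habc

open scoped Classical in
/-- the set of primes dividing `p η`. -/
noncomputable def badFinset (p : ℕ) (η : 𝓞 K) (hη : η ≠ 0) (hp : p ≠ 0) :
    Finset (HeightOneSpectrum (𝓞 K)) :=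
  (finite_setOf_mem (K := K) (a := (p : 𝓞 K) * η)
    (mul_ne_zero (Nat.cast_ne_zero.mpr hp) hη)).toFinset

theorem mem_badFinset {p : ℕ} {η : 𝓞 K} (hη : η ≠ 0) (hp : p ≠ 0)
    (v : HeightOneSpectrum (𝓞 K)) :
    v ∈ badFinset p η hη hp ↔ ((p : 𝓞 K) ∈ v.asIdeal ∨ η ∈ v.asIdeal) := by
  unfold badFinset
  rw [Set.Finite.mem_toFinset, Set.mem_ofPred_eq]
  exact v.isPrime.mul_mem_iff_mem_or_mem

open scoped Classical in
/-- the Euler-factor comparison for finite sets of primes. -/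
theorem prod_le_of_char {p : ℕ} (hp : p.Prime) (η : 𝓞 K) (hη : η ≠ 0)
    (χ : ClassGroup (𝓞 K) →* ℂˣ) (hχp : ∀ c, χ c ^ p = 1)
    (hgood : ∀ c ∈ Fermat.Agent.S14T.goodClasses p K η, χ c = 1)
    (φ : {v : HeightOneSpectrum (𝓞 K) // (p : 𝓞 K) ∉ v.asIdeal ∧ η ∉ v.asIdeal ∧
      ∃ y : 𝓞 K, η - y ^ p ∈ v.asIdeal} × Fin p → HeightOneSpectrum (𝓞 M))
    (hφ : Function.Injective φ)
    (hφN : ∀ x, Ideal.absNorm (φ x).asIdeal = Ideal.absNorm x.1.1.asIdeal)
    {s : ℝ} (hs : 1 < s) (T : Finset (HeightOneSpectrum (𝓞 K))) :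
    ∏ v ∈ T, ((1 - xv s v)⁻¹) ^ p ≤
      ‖∏ j ∈ Finset.range p, classL K (χ ^ j) s‖ * zetaR M s *
        Real.exp (2 * Fermat.Agent.S14Z.c1 K) ^ p *
        ((2 : ℝ) ^ p) ^ (badFinset p η hη hp.ne_zero).card := by
  set bad := badFinset p η hη hp.ne_zero with hbad
  have hx0 : ∀ v : HeightOneSpectrum (𝓞 K), 0 ≤ xv s v := fun v => xv_nonneg s v
  have hx1 : ∀ v : HeightOneSpectrum (𝓞 K), xv s v < 1 := fun v => xv_lt_one hs.le v
  have hE1 : ∀ v : HeightOneSpectrum (𝓞 K), 1 ≤ ((1 - xv s v)⁻¹) ^ p := fun v =>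
    one_le_pow₀ (one_le_inv_one_sub (hx0 v) (hx1 v))
  -- the four factors
  let fS : HeightOneSpectrum (𝓞 K) → ℝ := fun v =>
    if IsSplitP p η v then ((1 - xv s v)⁻¹) ^ p else 1
  let fB1 : HeightOneSpectrum (𝓞 K) → ℝ := fun v =>
    if ¬ (Ideal.absNorm v.asIdeal).Prime then ((1 - xv s v)⁻¹) ^ p else 1
  let fB2 : HeightOneSpectrum (𝓞 K) → ℝ := fun v => if v ∈ bad then (2 : ℝ) ^ p else 1
  have hfS1 : ∀ v, 1 ≤ fS v := fun v => by
    show 1 ≤ if IsSplitP p η v then ((1 - xv s v)⁻¹) ^ p else 1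
    split_ifs
    · exact hE1 v
    · exact le_rfl
  have hfB11 : ∀ v, 1 ≤ fB1 v := fun v => by
    show 1 ≤ if ¬ (Ideal.absNorm v.asIdeal).Prime then ((1 - xv s v)⁻¹) ^ p else 1
    split_ifs
    · exact le_rfl
    · exact hE1 v
  have hfB21 : ∀ v, 1 ≤ fB2 v := fun v => by
    show 1 ≤ if v ∈ bad then (2 : ℝ) ^ p else 1
    split_ifs
    · exact one_le_pow₀ (by norm_num)
    · exact le_rfl
  have hpoint : ∀ v : HeightOneSpectrum (𝓞 K),
      ((1 - xv s v)⁻¹) ^ p ≤ fchi p χ s v * fS v * fB1 v * fB2 v := by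
    intro v
    refine le_mul4 (one_le_fchi hp.ne_zero χ hs.le v) (hfS1 v) (hfB11 v) (hfB21 v) ?_
    by_cases hN : (Ideal.absNorm v.asIdeal).Prime
    · by_cases hb : v ∈ bad
      · right; right; right
        show _ ≤ if v ∈ bad then (2 : ℝ) ^ p else 1
        rw [if_pos hb]
        exact pow_le_pow_left₀ (inv_nonneg.mpr (by linarith [hx1 v]))
          (inv_one_sub_le_two (prime_rpow_le_half K v hs.le)) p
      · have hb' := (mem_badFinset hη hp.ne_zero v).not.mp hb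
        push Not at hb'
        by_cases hy : ∃ y : 𝓞 K, η - y ^ p ∈ v.asIdeal
        · right; left
          show _ ≤ if IsSplitP p η v then ((1 - xv s v)⁻¹) ^ p else 1
          rw [if_pos ⟨hb'.1, hb'.2, hy⟩]
        · left
          have hclass : chiv χ v = 1 := by
            apply hgood
            refine ⟨⟨v.asIdeal, mem_nonZeroDivisors_of_ne_zero v.ne_bot⟩, v.isPrime, hN, ?_, ?_,
              rfl⟩
            · intro hNp
              apply hb'.1
              have := Ideal.absNorm_mem v.asIdeal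
              rw [hNp] at this
              exact_mod_cast this
            · rintro ⟨x, hx⟩
              apply hy
              refine ⟨x, ?_⟩
              have : η - x ^ p = -(x ^ p - η) := by ring
              rw [this]
              exact neg_mem hx
          rw [fchi_eq_of_chiv_eq_one χ s hclass]
    · right; right; left
      show _ ≤ if ¬ (Ideal.absNorm v.asIdeal).Prime then ((1 - xv s v)⁻¹) ^ p else 1
      rw [if_pos hN]
  have h1 : ∏ v ∈ T, ((1 - xv s v)⁻¹) ^ p ≤ ∏ v ∈ T, (fchi p χ s v * fS v * fB1 v * fB2 v) :=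
    Finset.prod_le_prod (fun v _ => le_trans zero_le_one (hE1 v)) (fun v _ => hpoint v)
  rw [Finset.prod_mul_distrib, Finset.prod_mul_distrib, Finset.prod_mul_distrib] at h1
  have hA := prod_fchi_le hp χ hχp hs T
  have hS : ∏ v ∈ T, fS v ≤ zetaR M s := by
    have : ∏ v ∈ T, fS v = ∏ v ∈ T with IsSplitP p η v, ((1 - xv s v)⁻¹) ^ p :=
      (Finset.prod_filter (IsSplitP p η) (fun v => ((1 - xv s v)⁻¹) ^ p)).symm
    rw [this]
    exact prod_split_le η φ hφ hφN hs T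
  have hB1 : ∏ v ∈ T, fB1 v ≤ Real.exp (2 * Fermat.Agent.S14Z.c1 K) ^ p := by
    have : ∏ v ∈ T, fB1 v =
        ∏ v ∈ T with ¬ (Ideal.absNorm v.asIdeal).Prime, ((1 - xv s v)⁻¹) ^ p :=
      (Finset.prod_filter (fun v : HeightOneSpectrum (𝓞 K) => ¬ (Ideal.absNorm v.asIdeal).Prime)
        (fun v => ((1 - xv s v)⁻¹) ^ p)).symm
    rw [this, Finset.prod_pow]
    refine pow_le_pow_left₀ (Finset.prod_nonneg fun v _ => ?_)
      (Fermat.Agent.S14Z.prod_nonPrimeNorm_inv_one_sub_le K hs.le T) p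
    exact inv_nonneg.mpr (by linarith [hx1 v])
  have hB2 : ∏ v ∈ T, fB2 v ≤ ((2 : ℝ) ^ p) ^ bad.card := by
    have : ∏ v ∈ T, fB2 v = ∏ v ∈ T with v ∈ bad, (2 : ℝ) ^ p :=
      (Finset.prod_filter (fun v => v ∈ bad) (fun _ => (2 : ℝ) ^ p)).symm
    rw [this, Finset.prod_const]
    refine pow_le_pow_right₀ (one_le_pow₀ (by norm_num)) (Finset.card_le_card ?_)
    intro v hv
    exact (Finset.mem_filter.mp hv).2
  have hA0 : 0 ≤ ∏ v ∈ T, fchi p χ s v :=
    Finset.prod_nonneg fun v _ => le_trans zero_le_one (one_le_fchi hp.ne_zero χ hs.le v)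
  have hS0 : 0 ≤ ∏ v ∈ T, fS v := Finset.prod_nonneg fun v _ => le_trans zero_le_one (hfS1 v)
  have hB10 : 0 ≤ ∏ v ∈ T, fB1 v := Finset.prod_nonneg fun v _ => le_trans zero_le_one (hfB11 v)
  have hB20 : 0 ≤ ∏ v ∈ T, fB2 v := Finset.prod_nonneg fun v _ => le_trans zero_le_one (hfB21 v)
  refine h1.trans ?_
  have hz0 : 0 ≤ zetaR M s := (zetaR_pos M hs).le
  have hn0 : 0 ≤ ‖∏ j ∈ Finset.range p, classL K (χ ^ j) s‖ := norm_nonneg _
  have he0 : 0 ≤ Real.exp (2 * Fermat.Agent.S14Z.c1 K) ^ p := by positivity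
  gcongr

end assembly

/-! ### The contradiction -/

section final

variable {K : Type} [Field K] [NumberField K] {M : Type*} [Field M] [NumberField M]

open scoped Classical in
theorem zetaR_pow_le {p : ℕ} (hp : p.Prime) (η : 𝓞 K) (hη : η ≠ 0)
    (χ : ClassGroup (𝓞 K) →* ℂˣ) (hχp : ∀ c, χ c ^ p = 1)
    (hgood : ∀ c ∈ Fermat.Agent.S14T.goodClasses p K η, χ c = 1)
    (φ : {v : HeightOneSpectrum (𝓞 K) // (p : 𝓞 K) ∉ v.asIdeal ∧ η ∉ v.asIdeal ∧
      ∃ y : 𝓞 K, η - y ^ p ∈ v.asIdeal} × Fin p → HeightOneSpectrum (𝓞 M))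
    (hφ : Function.Injective φ)
    (hφN : ∀ x, Ideal.absNorm (φ x).asIdeal = Ideal.absNorm x.1.1.asIdeal)
    {s : ℝ} (hs : 1 < s) :
    zetaR K s ^ p ≤
      ‖∏ j ∈ Finset.range p, classL K (χ ^ j) s‖ * zetaR M s *
        Real.exp (2 * Fermat.Agent.S14Z.c1 K) ^ p *
        ((2 : ℝ) ^ p) ^ (badFinset p η hη hp.ne_zero).card :=
  real_le_of_hasProd ((zetaR_hasProd K hs).pow p)
    (fun T => prod_le_of_char hp η hη χ hχp hgood φ hφ hφN hs T)

theorem norm_prod_classL_le {p : ℕ} (hp : p.Prime) (χ : ClassGroup (𝓞 K) →* ℂˣ) {B : ℝ}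
    {s : ℝ} (hs : 1 < s)
    (hB : ∀ j : ℕ, 0 < j → j < p → ‖classL K (χ ^ j) s‖ ≤ B) :
    ‖∏ j ∈ Finset.range p, classL K (χ ^ j) s‖ ≤ zetaR K s * B ^ (p - 1) := by
  obtain ⟨n, rfl⟩ : ∃ n, p = n + 1 := ⟨p - 1, (Nat.succ_pred_eq_of_pos hp.pos).symm⟩
  have h0 : (χ ^ 0 : ClassGroup (𝓞 K) →* ℂˣ) = 1 := pow_zero χ
  rw [norm_prod, Finset.prod_range_succ', h0, classL_one K hs, Complex.norm_real,
    Real.norm_of_nonneg (zetaR_pos K hs).le, mul_comm, Nat.add_sub_cancel]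
  refine mul_le_mul_of_nonneg_left ?_ (zetaR_pos K hs).le
  calc ∏ k ∈ Finset.range n, ‖classL K (χ ^ (k + 1)) s‖ ≤ ∏ _k ∈ Finset.range n, B :=
        Finset.prod_le_prod (fun _ _ => norm_nonneg _)
          (fun k hk => hB (k + 1) (Nat.succ_pos k) (by
            have := Finset.mem_range.mp hk; omega))
    _ = B ^ n := by rw [Finset.prod_const, Finset.card_range]

/-- the core: a character of order dividing `p`, trivial on the good classes, all of whose
nontrivial powers have bounded `L`-series near `1`, cannot exist when the split primes inject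
`p`-to-one into the primes of a number field `M`. -/
theorem false_of_char {p : ℕ} (hp : p.Prime) (h3 : 3 ≤ p) (η : 𝓞 K) (hη : η ≠ 0)
    (χ : ClassGroup (𝓞 K) →* ℂˣ) (hχp : ∀ c, χ c ^ p = 1)
    (hgood : ∀ c ∈ Fermat.Agent.S14T.goodClasses p K η, χ c = 1)
    (φ : {v : HeightOneSpectrum (𝓞 K) // (p : 𝓞 K) ∉ v.asIdeal ∧ η ∉ v.asIdeal ∧
      ∃ y : 𝓞 K, η - y ^ p ∈ v.asIdeal} × Fin p → HeightOneSpectrum (𝓞 M))
    (hφ : Function.Injective φ)
    (hφN : ∀ x, Ideal.absNorm (φ x).asIdeal = Ideal.absNorm x.1.1.asIdeal)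
    (B : ℝ) (hB : ∀ j : ℕ, 0 < j → j < p → ∀ s : ℝ, 1 < s → s ≤ 2 →
      ‖classL K (χ ^ j) s‖ ≤ B) : False := by
  classical
  obtain ⟨cK, CK, hcK, hK⟩ := zetaR_pole K
  obtain ⟨cM, CM, hcM, hM⟩ := zetaR_pole M
  set C0 : ℝ := Real.exp (2 * Fermat.Agent.S14Z.c1 K) ^ p *
    ((2 : ℝ) ^ p) ^ (badFinset p η hη hp.ne_zero).card with hC0
  have hC0pos : 0 < C0 := by positivity
  have hB0 : 0 ≤ B := by
    have := hB 1 one_pos (by omega) 2 (by norm_num) le_rfl
    exact le_trans (norm_nonneg _) this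
  set D : ℝ := B ^ (p - 1) * C0 * CM with hD
  -- the key inequality near `1`
  have hev : ∀ᶠ s in 𝓝[>] (1 : ℝ), cK ^ (p - 1) ≤ D * (s - 1) ^ (p - 2) := by
    have h12 : ∀ᶠ s in 𝓝[>] (1 : ℝ), s ∈ Set.Ioc (1 : ℝ) 2 :=
      Ioc_mem_nhdsGT (by norm_num)
    filter_upwards [hK, hM, h12] with s hKs hMs hs12
    obtain ⟨hs1, hs2⟩ := hs12
    have hs0 : 0 < s - 1 := by linarith
    have hzK := zetaR_pos K hs1
    have hzM := zetaR_pos M hs1
    have h1 := zetaR_pow_le hp η hη χ hχp hgood φ hφ hφN hs1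
    have h2 := norm_prod_classL_le hp χ hs1 (fun j hj0 hjp => hB j hj0 hjp s hs1 hs2)
    -- zetaR K ^ p ≤ zetaR K * B^(p-1) * zetaR M * C0
    have h3' : zetaR K s ^ p ≤ zetaR K s * B ^ (p - 1) * zetaR M s * C0 := by
      calc zetaR K s ^ p ≤ ‖∏ j ∈ Finset.range p, classL K (χ ^ j) s‖ * zetaR M s * C0 := by
            rw [hC0, ← mul_assoc]; exact h1
        _ ≤ zetaR K s * B ^ (p - 1) * zetaR M s * C0 := by gcongr
    have h4 : zetaR K s ^ (p - 1) ≤ B ^ (p - 1) * zetaR M s * C0 := by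
      have hpp : zetaR K s ^ p = zetaR K s * zetaR K s ^ (p - 1) := by
        rw [← pow_succ', Nat.sub_add_cancel hp.one_le]
      rw [hpp, mul_assoc, mul_assoc] at h3'
      have := le_of_mul_le_mul_left h3' hzK
      linarith [this]
    have h5 : (cK / (s - 1)) ^ (p - 1) ≤ zetaR K s ^ (p - 1) :=
      pow_le_pow_left₀ (div_nonneg hcK.le hs0.le) hKs.1 _
    have h6 : B ^ (p - 1) * zetaR M s * C0 ≤ B ^ (p - 1) * (CM / (s - 1)) * C0 := by
      gcongr
      exact hMs.2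
    have h7 : (cK / (s - 1)) ^ (p - 1) ≤ B ^ (p - 1) * (CM / (s - 1)) * C0 :=
      h5.trans (h4.trans h6)
    have hpow : (s - 1) ^ (p - 1) = (s - 1) ^ (p - 2) * (s - 1) := by
      rw [← pow_succ]; congr 1; omega
    have h8 : cK ^ (p - 1) = (cK / (s - 1)) ^ (p - 1) * (s - 1) ^ (p - 1) := by
      rw [div_pow, div_mul_cancel₀ _ (pow_pos hs0 _).ne']
    rw [h8]
    calc (cK / (s - 1)) ^ (p - 1) * (s - 1) ^ (p - 1)
        ≤ (B ^ (p - 1) * (CM / (s - 1)) * C0) * (s - 1) ^ (p - 1) :=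
          mul_le_mul_of_nonneg_right h7 (pow_pos hs0 _).le
      _ = D * (s - 1) ^ (p - 2) := by
          rw [hpow, hD]
          field_simp
  have hlim : Tendsto (fun s : ℝ => D * (s - 1) ^ (p - 2)) (𝓝[>] (1 : ℝ)) (𝓝 0) := by
    have hc : Continuous fun s : ℝ => D * (s - 1) ^ (p - 2) := by fun_prop
    have h0 : D * ((1 : ℝ) - 1) ^ (p - 2) = 0 := by
      rw [sub_self, zero_pow (by omega), mul_zero]
    have := hc.tendsto 1
    rw [h0] at this
    exact this.mono_left nhdsWithin_le_nhds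
  have hle : cK ^ (p - 1) ≤ 0 := ge_of_tendsto hlim hev
  exact absurd hle (not_le.mpr (pow_pos hcK _))

end final

/-! ### The generation statement from its two inputs -/

section gen

/-- hypothesis-form closer of `S14T.GenStatement`: `hB` is `classL_bounded` ([An2]), `hS` is the
splitting pack of the Kummer extension `K(η^{1/p})`. -/
theorem genStatement_of
    (hB : ∀ (K : Type) [Field K] [NumberField K] (χ : ClassGroup (𝓞 K) →* ℂˣ), χ ≠ 1 →
      ∃ B : ℝ, ∀ s : ℝ, 1 < s → s ≤ 2 → ‖classL K χ s‖ ≤ B)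
    (hS : ∀ (p : ℕ) (_ : p.Prime) (K : Type) [Field K] [NumberField K],
      (∃ ζ : K, IsPrimitiveRoot ζ p) → ∀ η : 𝓞 K, (∀ b : K, b ^ p ≠ (η : K)) →
      ∃ (M : Type) (_ : Field M) (_ : NumberField M)
        (φ : {v : HeightOneSpectrum (𝓞 K) // (p : 𝓞 K) ∉ v.asIdeal ∧ η ∉ v.asIdeal ∧
          ∃ y : 𝓞 K, η - y ^ p ∈ v.asIdeal} × Fin p → HeightOneSpectrum (𝓞 M)),
        Function.Injective φ ∧ ∀ x, Ideal.absNorm (φ x).asIdeal = Ideal.absNorm x.1.1.asIdeal) :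
    Fermat.Agent.S14T.GenStatement := by
  classical
  intro K _ _ p hp h3 hζ η hη
  by_contra hH
  obtain ⟨χ, hχ1, hχH⟩ := exists_char_of_ne_top _ hH
  have hχp : ∀ c, χ c ^ p = 1 := fun c => by
    rw [← map_pow]
    exact hχH _ (Subgroup.mem_sup_right ⟨c, rfl⟩)
  have hgood : ∀ c ∈ Fermat.Agent.S14T.goodClasses p K η, χ c = 1 := fun c hc =>
    hχH c (Subgroup.mem_sup_left (Subgroup.subset_closure hc))
  obtain ⟨c₀, hc₀⟩ : ∃ c, χ c ≠ 1 := by
    by_contra h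
    exact hχ1 (MonoidHom.ext fun c => by_contra fun hc => h ⟨c, hc⟩)
  have hχj : ∀ j : ℕ, 0 < j → j < p → χ ^ j ≠ 1 := fun j hj0 hjp h => by
    have hj : χ c₀ ^ j = 1 := by
      rw [← MonoidHom.pow_apply, h]; rfl
    have h1 : orderOf (χ c₀) ∣ p := orderOf_dvd_of_pow_eq_one (hχp c₀)
    have h2 : orderOf (χ c₀) ∣ j := orderOf_dvd_of_pow_eq_one hj
    rcases (Nat.dvd_prime hp).mp h1 with h | h
    · exact hc₀ (orderOf_eq_one_iff.mp h)
    · rw [h] at h2
      exact absurd (Nat.le_of_dvd hj0 h2) (by omega)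
  -- a common bound
  let b : ℕ → ℝ := fun j => if h : χ ^ j ≠ 1 then (hB K (χ ^ j) h).choose else 0
  have hb : ∀ j : ℕ, 0 < j → j < p → ∀ s : ℝ, 1 < s → s ≤ 2 →
      ‖classL K (χ ^ j) s‖ ≤ ∑ i ∈ Finset.range p, |b i| := by
    intro j hj0 hjp s hs1 hs2
    have h := hχj j hj0 hjp
    have h1 : ‖classL K (χ ^ j) s‖ ≤ b j := by
      show _ ≤ if h : χ ^ j ≠ 1 then (hB K (χ ^ j) h).choose else 0
      rw [dif_pos h]
      exact (hB K (χ ^ j) h).choose_spec s hs1 hs2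
    calc ‖classL K (χ ^ j) s‖ ≤ b j := h1
      _ ≤ |b j| := le_abs_self _
      _ ≤ ∑ i ∈ Finset.range p, |b i| :=
        Finset.single_le_sum (f := fun i => |b i|) (fun i _ => abs_nonneg _)
          (Finset.mem_range.mpr hjp)
  have hη0 : η ≠ 0 := by
    rintro rfl
    exact hη ⟨0, by simp [hp.ne_zero]⟩
  obtain ⟨M, _, _, φ, hφ, hφN⟩ := hS p hp K hζ η (fun b hb => hη ⟨b, hb⟩)
  exact false_of_char hp h3 η hη0 χ hχp hgood φ hφ hφN _ hb

end gen

end Fermat.Agent.S14A.Gen
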