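/-
S14A, final statement (G): the classes of the "good" primes of prime norm (those modulo which
`η` is not a `p`-th power) generate the class group modulo `p`-th powers.

This file only instantiates the closer `GenAn.genStatement_of` of `S14A/GenAnCore.lean` with
  * the Kummer splitting pack `KummerSplit.exists_numberField_split` (S14T/KummerSplit.lean),
  * the boundedness of the class `L`-functions of nontrivial characters on `(1, 2]`
    (`ClassLCore.classL_bounded_of` fed with the class unfolding of S14A/Unfold.lean and the
    lattice point asymptotics of S14T/An2Coset.lean, S14T/An2Asymp.lean).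
-/
import Mathlib
import Fermat.Agent.S14T.Plan
import Fermat.Agent.S14T.KummerSplit
import Fermat.Agent.S14T.An2Asymp
import Fermat.Agent.S14A.Unfold
import Fermat.Agent.S14A.ClassLBoundCore
import Fermat.Agent.S14A.GenAnCore

set_option autoImplicit false

namespace Fermat.Agent.S14A

open NumberField

/-- the (S-pack) input of the closer. -/
theorem splitPack : GenAn.SplitPack := by
  intro K _ _ p hp hζ η hη
  have : Fact p.Prime := ⟨hp⟩
  exact Fermat.Agent.S14T.KummerSplit.exists_numberField_split hζ η hη

/-- the [An2] input of the closer. -/
theorem classLBounded : GenAn.ClassLBounded := by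
  intro K _ _ χ hχ
  exact ClassLCore.classL_bounded_of K χ hχ
    (fun s hs => Fermat.Agent.S14T.An2.summable_G K hs)
    (fun J s => summable_G_iff K J s)
    (fun J s => S_eq_classZeta K J s)
    (fun J hJ => Fermat.Agent.S14T.An2.S_asymp K J hJ)

/-- **(G)**: the generation statement of `S14T/Plan.lean`. -/
theorem genStatement : Fermat.Agent.S14T.GenStatement :=
  GenAn.genStatement_of splitPack classLBounded

end Fermat.Agent.S14A
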