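/-
S14A block, leaf [M]: existence of the Kummer field `K(η^(1/p))`.

For a number field `K`, a prime `p`, a primitive `p`-th root of unity `ζ ∈ 𝓞 K` and an
integer `η ∈ 𝓞 K` which is not a `p`-th power in `K`, the field `M = K[X]/(X^p - η)` is a
number field of degree `p` over `K`, it contains an integer `θ` with `θ^p = η`, and it has a
`K`-automorphism `σ` with `σ θ = ζ θ`.
-/
import Mathlib

set_option autoImplicit false

namespace Fermat.Agent.S14A

open NumberField Polynomial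

/-- Kummer field: if `η ∈ 𝓞 K` is not a `p`-th power in `K` (`p` prime) and `ζ ∈ 𝓞 K` is a
primitive `p`-th root of unity, there is a number field `M` of degree `p` over `K`, an integer
`θ ∈ 𝓞 M` with `θ ^ p = η`, and a `K`-automorphism `σ` of `M` with `σ θ = ζ θ`. -/
theorem exists_kummer_field {p : ℕ} (hp : p.Prime) (K : Type) [Field K] [NumberField K]
    (ζ η : 𝓞 K) (hζ : IsPrimitiveRoot ζ p) (hη : ¬ ∃ x : K, x ^ p = (η : K)) :
    ∃ (M : Type) (_ : Field M) (_ : NumberField M) (_ : Algebra K M) (θ : 𝓞 M)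
      (σ : M ≃ₐ[K] M), Module.finrank K M = p ∧ θ ^ p = algebraMap (𝓞 K) (𝓞 M) η ∧
        σ (θ : M) = (algebraMap (𝓞 K) (𝓞 M) ζ : M) * (θ : M) := by
  -- the Kummer polynomial `X ^ p - η` is irreducible over `K`
  have hirr : Irreducible (X ^ p - C (η : K) : K[X]) :=
    X_pow_sub_C_irreducible_of_prime hp (fun b hb => hη ⟨b, hb⟩)
  have : Fact (Irreducible (X ^ p - C (η : K) : K[X])) := ⟨hirr⟩
  have : NeZero p := ⟨hp.ne_zero⟩
  have hmonic : (X ^ p - C (η : K) : K[X]).Monic := monic_X_pow_sub_C _ hp.ne_zero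
  -- `M = K[X]/(X ^ p - η)` is a finite extension of `K`, hence a number field
  have : Module.Finite K (AdjoinRoot (X ^ p - C (η : K) : K[X])) := hmonic.finite_adjoinRoot
  have hNF : NumberField (AdjoinRoot (X ^ p - C (η : K) : K[X])) :=
    NumberField.of_module_finite K _
  -- the root `θ` satisfies `θ ^ p = η`, so it is an algebraic integer
  have hroot : (AdjoinRoot.root (X ^ p - C (η : K) : K[X])) ^ p = AdjoinRoot.of _ (η : K) :=
    root_X_pow_sub_C_pow p (η : K)
  have hint : IsIntegral ℤ (AdjoinRoot.root (X ^ p - C (η : K) : K[X])) := by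
    refine IsIntegral.of_pow hp.pos ?_
    rw [hroot]
    exact map_isIntegral_int _ (RingOfIntegers.isIntegral_coe η)
  have hζK : (algebraMap (𝓞 K) K ζ) ^ p = 1 := by
    rw [← map_pow, hζ.pow_eq_one, map_one]
  refine ⟨AdjoinRoot (X ^ p - C (η : K) : K[X]), inferInstance, hNF, inferInstance,
    ⟨AdjoinRoot.root _, hint⟩,
    autAdjoinRootXPowSubC p (η : K) (rootsOfUnity.mkOfPowEq (algebraMap (𝓞 K) K ζ) hζK),
    ?_, ?_, ?_⟩
  · -- degree
    rw [(AdjoinRoot.powerBasis hirr.ne_zero).finrank, AdjoinRoot.powerBasis_dim,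
      natDegree_X_pow_sub_C]
  · -- `θ ^ p = η`
    apply RingOfIntegers.ext
    have h1 : ((algebraMap (𝓞 K) (𝓞 (AdjoinRoot (X ^ p - C (η : K) : K[X]))) η :
        𝓞 (AdjoinRoot (X ^ p - C (η : K) : K[X]))) : AdjoinRoot (X ^ p - C (η : K) : K[X]))
        = AdjoinRoot.of _ (η : K) := rfl
    rw [h1, ← hroot]
    exact map_pow _ _ _
  · -- `σ θ = ζ θ`
    have h1 : ((algebraMap (𝓞 K) (𝓞 (AdjoinRoot (X ^ p - C (η : K) : K[X]))) ζ :
        𝓞 (AdjoinRoot (X ^ p - C (η : K) : K[X]))) : AdjoinRoot (X ^ p - C (η : K) : K[X]))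
        = algebraMap K _ (ζ : K) := rfl
    rw [h1]
    have h2 := autAdjoinRootXPowSubC_root (n := p) (η : K)
      (rootsOfUnity.mkOfPowEq (algebraMap (𝓞 K) K ζ) hζK)
    rw [rootsOfUnity.coe_mkOfPowEq, Algebra.smul_def] at h2
    exact h2

end Fermat.Agent.S14A
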