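/-
S14A block [S] (helper84): splitting of primes in a Kummer extension of prime degree,
without decomposition groups, lying-over counts or Kummer–Dedekind.

Setting: `M / K` number fields, `[M : K] = p` prime, `θ ∈ 𝓞 M` with `θ ^ p = η ∈ 𝓞 K`,
`σ ∈ Aut (M / K)` with `σ θ = ζ θ` for a primitive `p`-th root of unity `ζ ∈ 𝓞 K`.
For a prime `v` of `K` with `v ∤ p η` and `η ≡ x ^ p mod v` the ideals
`P j = v 𝓞 M + (θ - ζ ^ j x)`, `j < p`, are `p` distinct primes over `v` of norm `N v`.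
-/
import Mathlib

set_option autoImplicit false

namespace Fermat.Agent.S14A

open NumberField IsDedekindDomain

namespace KummerSplitAux

/-- a product of ideals `A ⊔ span {g i}` lies in `A ⊔ span {∏ g i}`. -/
theorem prod_sup_span_le {S : Type*} [CommRing S] {ι : Type*} (s : Finset ι) (A : Ideal S)
    (g : ι → S) :
    ∏ i ∈ s, (A ⊔ Ideal.span {g i}) ≤ A ⊔ Ideal.span {∏ i ∈ s, g i} := by
  classical
  induction s using Finset.induction_on with
  | empty => simp
  | insert a s ha ih =>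
    rw [Finset.prod_insert ha, Finset.prod_insert ha]
    refine le_trans (Ideal.mul_mono le_rfl ih) ?_
    rw [Ideal.sup_mul, Ideal.mul_sup, Ideal.mul_sup, Ideal.span_singleton_mul_span_singleton]
    refine sup_le (sup_le ?_ ?_) (sup_le ?_ le_sup_right)
    · exact le_sup_of_le_left Ideal.mul_le_right
    · exact le_sup_of_le_left Ideal.mul_le_left
    · exact le_sup_of_le_left Ideal.mul_le_right

/-- the absolute norm is invariant under ring automorphisms. -/
theorem absNorm_map_ringEquiv {M : Type*} [Field M] [NumberField M] (τ : 𝓞 M ≃+* 𝓞 M)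
    (I : Ideal (𝓞 M)) :
    Ideal.absNorm (I.map (τ : 𝓞 M →+* 𝓞 M)) = Ideal.absNorm I := by
  rw [Ideal.absNorm_apply, Ideal.absNorm_apply, Submodule.cardQuot_apply,
    Submodule.cardQuot_apply]
  exact (Nat.card_congr (Ideal.quotientEquiv I (I.map (τ : 𝓞 M →+* 𝓞 M)) τ rfl).toEquiv).symm

/-- an ideal contained in a maximal ideal of the same (nonzero) norm is equal to it. -/
theorem eq_of_le_of_absNorm_eq {M : Type*} [Field M] [NumberField M] {I Q : Ideal (𝓞 M)}
    (hle : I ≤ Q) (hN : Ideal.absNorm I = Ideal.absNorm Q) (h0 : Ideal.absNorm Q ≠ 0) :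
    I = Q := by
  obtain ⟨J, rfl⟩ := Ideal.dvd_iff_le.mpr hle
  rw [map_mul] at hN
  have hJ : Ideal.absNorm J = 1 := by
    have h1 : Ideal.absNorm Q * Ideal.absNorm J = Ideal.absNorm Q * 1 := by rw [hN, mul_one]
    exact Nat.eq_of_mul_eq_mul_left (Nat.pos_of_ne_zero h0) h1
  rw [Ideal.absNorm_eq_one_iff] at hJ
  rw [hJ, Ideal.mul_top]

end KummerSplitAux

open KummerSplitAux in
/-- splitting in a Kummer extension without decomposition groups: if `η ≡ x^p mod v`, `v ∤ p η`,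
then `p` distinct primes of `M = K(θ)`, `θ^p = η`, lie over `v`, each of norm `N v`.
(No hypothesis on the residue degree of `v`.) -/
theorem exists_split_primes_gen {p : ℕ} (hp : p.Prime) (K M : Type*) [Field K] [NumberField K]
    [Field M] [NumberField M] [Algebra K M] (hdeg : Module.finrank K M = p)
    (ζ η : 𝓞 K) (hζ : IsPrimitiveRoot ζ p) (θ : 𝓞 M)
    (hθ : θ ^ p = algebraMap (𝓞 K) (𝓞 M) η)
    (σ : M ≃ₐ[K] M) (hσ : σ (θ : M) = (algebraMap (𝓞 K) (𝓞 M) ζ : M) * (θ : M))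
    (v : HeightOneSpectrum (𝓞 K))
    (hvp : (p : 𝓞 K) ∉ v.asIdeal) (hvη : η ∉ v.asIdeal)
    (x : 𝓞 K) (hx : x ^ p - η ∈ v.asIdeal) :
    ∃ f : Fin p → HeightOneSpectrum (𝓞 M), Function.Injective f ∧
      ∀ j, Ideal.absNorm (f j).asIdeal = Ideal.absNorm v.asIdeal ∧
        (f j).asIdeal.comap (algebraMap (𝓞 K) (𝓞 M)) = v.asIdeal := by
  classical
  have hvprime : v.asIdeal.IsPrime := v.isPrime
  have hvmax : v.asIdeal.IsMaximal := v.isMaximal
  have hp0 : p ≠ 0 := hp.ne_zero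
  obtain ⟨φ, hφ⟩ : ∃ φ : 𝓞 K →+* 𝓞 M, φ = algebraMap (𝓞 K) (𝓞 M) := ⟨_, rfl⟩
  have hφinj : Function.Injective φ := hφ ▸ RingOfIntegers.algebraMap.injective K M
  rw [← hφ] at hθ hσ
  simp only [← hφ]
  -- the automorphism of `𝓞 M` induced by `σ`
  obtain ⟨τ, hτ⟩ : ∃ τ : 𝓞 M ≃+* 𝓞 M, τ = RingOfIntegers.mapRingEquiv (σ : M ≃+* M) :=
    ⟨_, rfl⟩
  have hτcoe : ∀ y : 𝓞 M, ((τ y : 𝓞 M) : M) = σ (y : M) := fun y => by rw [hτ]; rfl
  have hτφ : ∀ r : 𝓞 K, τ (φ r) = φ r := by
    intro r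
    apply RingOfIntegers.ext
    rw [hτcoe, hφ]
    exact σ.commutes (r : K)
  have hτθ : τ θ = φ ζ * θ := by
    apply RingOfIntegers.ext
    rw [hτcoe, hσ]
    rfl
  -- the ideals
  obtain ⟨V, hV⟩ : ∃ V : Ideal (𝓞 M), V = v.asIdeal.map φ := ⟨_, rfl⟩
  obtain ⟨g, hg⟩ : ∃ g : ℕ → 𝓞 M, g = fun j => θ - φ ζ ^ j * φ x := ⟨_, rfl⟩
  obtain ⟨P, hP⟩ : ∃ P : ℕ → Ideal (𝓞 M), P = fun j => V ⊔ Ideal.span {g j} := ⟨_, rfl⟩
  have hVP : ∀ j, V ≤ P j := fun j => by rw [hP]; exact le_sup_left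
  have hgP : ∀ j, g j ∈ P j := fun j => by
    rw [hP]; exact Ideal.mem_sup_right (Ideal.subset_span rfl)
  -- `τ` shifts the ideals
  have hτV : V.map (τ : 𝓞 M →+* 𝓞 M) = V := by
    rw [hV, Ideal.map_map]
    congr 1
    ext r
    exact congrArg _ (hτφ r)
  have hζu : IsUnit (φ ζ) := (hζ.isUnit hp0).map φ
  have hτg : ∀ j, τ (g (j + 1)) = φ ζ * g j := by
    intro j
    simp only [hg, map_sub, map_mul, map_pow, hτθ, hτφ]
    ring
  have hτP : ∀ j, (P (j + 1)).map (τ : 𝓞 M →+* 𝓞 M) = P j := by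
    intro j
    simp only [hP]
    rw [Ideal.map_sup, hτV, Ideal.map_span, Set.image_singleton]
    congr 1
    rw [RingEquiv.coe_toRingHom, hτg j]
    exact Ideal.span_singleton_mul_left_unit hζu _
  have hN : ∀ j, Ideal.absNorm (P j) = Ideal.absNorm (P 0) := by
    intro j
    induction j with
    | zero => rfl
    | succ j ih => rw [← ih, ← hτP j, absNorm_map_ringEquiv]
  -- units modulo `v`
  have hx' : x ∉ v.asIdeal := by
    intro h
    apply hvη
    have e : η = x ^ p - (x ^ p - η) := by ring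
    rw [e]
    exact v.asIdeal.sub_mem (v.asIdeal.pow_mem_of_mem h p hp.pos) hx
  have h1 : ∀ k, 0 < k → k < p → 1 - ζ ^ k ∉ v.asIdeal := by
    intro k hk0 hkp hmem
    apply hvp
    obtain ⟨n, rfl⟩ : ∃ n, p = n + 1 := ⟨p - 1, by omega⟩
    have hprod := hζ.prod_one_sub_pow_eq_order
    have hcast : ((n + 1 : ℕ) : 𝓞 K) = ∏ k ∈ Finset.range n, (1 - ζ ^ (k + 1)) := by
      rw [hprod]; push_cast; rfl
    rw [hcast]
    obtain ⟨k', rfl⟩ : ∃ k', k = k' + 1 := ⟨k - 1, by omega⟩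
    exact Ideal.mem_of_dvd _
      (Finset.dvd_prod_of_mem (fun k => 1 - ζ ^ (k + 1)) (Finset.mem_range.mpr (by omega))) hmem
  have hζk : ∀ k : ℕ, ζ ^ k ∉ v.asIdeal := by
    intro k h
    apply hvprime.ne_top
    rw [Ideal.eq_top_iff_one]
    have h2 := v.asIdeal.pow_mem_of_mem h p hp.pos
    rwa [← pow_mul, mul_comm, pow_mul, hζ.pow_eq_one, one_pow] at h2
  have h2 : ∀ i j, i < j → j < p → (ζ ^ i - ζ ^ j) * x ∉ v.asIdeal := by
    intro i j hij hjp hmem
    have e : (ζ ^ i - ζ ^ j) * x = ζ ^ i * ((1 - ζ ^ (j - i)) * x) := by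
      have e' : ζ ^ j = ζ ^ i * ζ ^ (j - i) := by
        rw [← pow_add]; congr 1; omega
      rw [e']; ring
    rw [e] at hmem
    rcases hvprime.mem_or_mem hmem with h | h
    · exact hζk i h
    · rcases hvprime.mem_or_mem h with h | h
      · exact h1 (j - i) (by omega) (by omega) h
      · exact hx' h
  -- pairwise comaximal
  have hcop : ∀ i j, i < j → j < p → P i ⊔ P j = ⊤ := by
    intro i j hij hjp
    obtain ⟨y, a, ha, hya⟩ := hvmax.exists_inv (h2 i j hij hjp)
    rw [Ideal.eq_top_iff_one]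
    have e : (1 : 𝓞 M) = φ y * (g j - g i) + φ a := by
      rw [← map_one φ, ← hya]
      simp only [hg, map_add, map_mul, map_sub, map_pow]
      ring
    rw [e]
    refine Ideal.add_mem _ (Ideal.mul_mem_left _ _ (Ideal.sub_mem _ ?_ ?_)) ?_
    · exact Ideal.mem_sup_right (hgP j)
    · exact Ideal.mem_sup_left (hgP i)
    · exact Ideal.mem_sup_left (hVP i (hV ▸ Ideal.mem_map_of_mem φ ha))
  -- the product of the ideals is `V`
  have hprod : ∏ j ∈ Finset.range p, P j = V := by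
    apply le_antisymm
    · have h3 := prod_sup_span_le (Finset.range p) V g
      rw [hP]
      refine le_trans h3 (sup_le le_rfl ?_)
      rw [Ideal.span_singleton_le_iff_mem]
      have hpoly := X_pow_sub_C_eq_prod (hζ.map_of_injective hφinj) hp.pos
        (rfl : (φ x) ^ p = (φ x) ^ p)
      have h4 := congrArg (Polynomial.eval θ) hpoly
      simp only [Polynomial.eval_sub, Polynomial.eval_pow, Polynomial.eval_X,
        Polynomial.eval_C, Polynomial.eval_prod] at h4
      have h5 : ∏ i ∈ Finset.range p, g i = θ ^ p - φ x ^ p := by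
        rw [h4, hg]
      rw [h5, hθ, ← map_pow, ← map_sub, hV]
      apply Ideal.mem_map_of_mem
      have e : η - x ^ p = -(x ^ p - η) := by ring
      rw [e]
      exact v.asIdeal.neg_mem hx
    · rw [← Ideal.dvd_iff_le]
      apply Finset.prod_dvd_of_coprime
      · intro i hi j hj hij
        rw [Function.onFun, Ideal.isCoprime_iff_sup_eq]
        rcases lt_or_gt_of_ne hij with h | h
        · exact hcop i j h (Finset.mem_range.mp hj)
        · rw [sup_comm]; exact hcop j i h (Finset.mem_range.mp hi)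
      · intro i _
        rw [Ideal.dvd_iff_le]
        exact hVP i
  -- norms
  have hNV : Ideal.absNorm V = Ideal.absNorm v.asIdeal ^ p := by
    rw [hV, hφ, Ideal.absNorm_algebraMap, ← hdeg]
    congr 1
    exact (IsFractionRing.finrank_eq (𝓞 K) K (𝓞 M) M).symm
  have hN0 : Ideal.absNorm (P 0) = Ideal.absNorm v.asIdeal := by
    have h := congrArg Ideal.absNorm hprod
    rw [map_prod, Finset.prod_congr rfl (fun j _ => hN j), Finset.prod_const, Finset.card_range,
      hNV] at h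
    exact Nat.pow_left_injective hp0 h
  have hNj : ∀ j, Ideal.absNorm (P j) = Ideal.absNorm v.asIdeal := fun j => (hN j).trans hN0
  have hNv0 : Ideal.absNorm v.asIdeal ≠ 0 := by
    rw [Ideal.absNorm_ne_zero_iff]
    exact Ideal.finiteQuotientOfFreeOfNeBot v.asIdeal v.ne_bot
  have hNv1 : Ideal.absNorm v.asIdeal ≠ 1 := by
    rw [Ne, Ideal.absNorm_eq_one_iff]
    exact hvprime.ne_top
  have hPtop : ∀ j, P j ≠ ⊤ := by
    intro j h
    apply hNv1
    rw [← hNj j, h, Ideal.absNorm_top]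
  -- each `P j` is a maximal ideal lying over `v`
  have hPmax : ∀ j, (P j).IsMaximal ∧ (P j).comap φ = v.asIdeal := by
    intro j
    obtain ⟨Q, hQmax, hPQ⟩ := Ideal.exists_le_maximal (P j) (hPtop j)
    have hcomap : Q.comap φ = v.asIdeal := by
      symm
      apply hvmax.eq_of_le (Ideal.comap_ne_top φ hQmax.ne_top)
      rw [← Ideal.map_le_iff_le_comap, ← hV]
      exact (hVP j).trans hPQ
    have hdvd : Ideal.absNorm Q ∣ Ideal.absNorm v.asIdeal := by
      rw [← hNj j]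
      exact Ideal.absNorm_dvd_absNorm_of_le hPQ
    have hQ0 : Ideal.absNorm Q ≠ 0 := fun h0 => hNv0 (by simpa [h0] using hdvd)
    have hfin : Finite (𝓞 M ⧸ Q) := (Ideal.absNorm_ne_zero_iff Q).mp hQ0
    have hle : Ideal.absNorm v.asIdeal ≤ Ideal.absNorm Q := by
      rw [Ideal.absNorm_apply, Ideal.absNorm_apply, Submodule.cardQuot_apply,
        Submodule.cardQuot_apply]
      exact Nat.card_le_card_of_injective
        (Ideal.quotientMap Q φ (le_of_eq hcomap.symm))
        (Ideal.quotientMap_injective' (le_of_eq hcomap))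
    have hQv : Ideal.absNorm Q = Ideal.absNorm v.asIdeal :=
      le_antisymm (Nat.le_of_dvd (Nat.pos_of_ne_zero hNv0) hdvd) hle
    have hPQeq : P j = Q := eq_of_le_of_absNorm_eq hPQ ((hNj j).trans hQv.symm) hQ0
    rw [hPQeq]
    exact ⟨hQmax, hcomap⟩
  have hPbot : ∀ j, P j ≠ ⊥ := by
    intro j h
    apply hNv0
    rw [← hNj j, h, Ideal.absNorm_bot]
  refine ⟨fun j => ⟨P j, (hPmax j).1.isPrime, hPbot j⟩, ?_, fun j => ⟨hNj j, (hPmax j).2⟩⟩
  intro i j hij
  by_contra hne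
  have hPij : P i = P j := congrArg HeightOneSpectrum.asIdeal hij
  have hne' : (i : ℕ) ≠ (j : ℕ) := fun h => hne (Fin.ext h)
  have htop : P i ⊔ P j = ⊤ := by
    rcases lt_or_gt_of_ne hne' with h | h
    · exact hcop i j h j.isLt
    · rw [sup_comm]; exact hcop j i h i.isLt
  rw [hPij, sup_idem] at htop
  exact hPtop j htop

/-- the statement of `S14A/Plan.lean` (the hypothesis `hv` is not needed). -/
theorem exists_split_primes {p : ℕ} (hp : p.Prime) (K M : Type*) [Field K] [NumberField K]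
    [Field M] [NumberField M] [Algebra K M] (hdeg : Module.finrank K M = p)
    (ζ η : 𝓞 K) (hζ : IsPrimitiveRoot ζ p) (θ : 𝓞 M)
    (hθ : θ ^ p = algebraMap (𝓞 K) (𝓞 M) η)
    (σ : M ≃ₐ[K] M) (hσ : σ (θ : M) = (algebraMap (𝓞 K) (𝓞 M) ζ : M) * (θ : M))
    (v : HeightOneSpectrum (𝓞 K)) (hv : (Ideal.absNorm v.asIdeal).Prime)
    (hvp : (p : 𝓞 K) ∉ v.asIdeal) (hvη : η ∉ v.asIdeal)
    (x : 𝓞 K) (hx : x ^ p - η ∈ v.asIdeal) :
    ∃ f : Fin p → HeightOneSpectrum (𝓞 M), Function.Injective f ∧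
      ∀ j, Ideal.absNorm (f j).asIdeal = Ideal.absNorm v.asIdeal ∧
        (f j).asIdeal.comap (algebraMap (𝓞 K) (𝓞 M)) = v.asIdeal :=
  have _ := hv
  exists_split_primes_gen hp K M hdeg ζ η hζ θ hθ σ hσ v hvp hvη x hx

end Fermat.Agent.S14A
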