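/-
S14A block interfaces (sub-captain helper4).  STATEMENTS ONLY (placeholders, namespace
`Fermat.Agent.S14A.Plan`).  The real theorems carry the SAME names and statements in the
namespace `Fermat.Agent.S14A`, in the files named in the section headers.
Never import this file from a file that is meant to be final.
-/
import Mathlib
import Fermat.Agent.S14A.Defs
import Fermat.Agent.S14T.An2Defs
import Fermat.Agent.S14T.Plan

set_option autoImplicit false

namespace Fermat.Agent.S14A.Plan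

open NumberField NumberField.Units NumberField.Units.dirichletUnitTheorem
  NumberField.mixedEmbedding nonZeroDivisors IsDedekindDomain
open Fermat.Agent.S14T.An2

section An2
variable (K : Type*) [Field K] [NumberField K]

/-! ### (P1)  file `S14A/UnitSum.lean` -/

/-- unit sum: the tent weights of the associates of `a ≠ 0` add up to the torsion order. -/
theorem hasSum_psi_unit_mul (a : 𝓞 K) (ha : a ≠ 0) :
    HasSum (fun u : (𝓞 K)ˣ => psi K (ell K (((u : 𝓞 K) * a : 𝓞 K) : K)))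
      (torsionOrder K : ℝ) := by sorry

/-! ### (P2)  file `S14A/Unfold.lean` -/

/-- class unfolding (valid for every real `s`; both sides are `0` when not summable). -/
theorem S_eq_classZeta (J : (Ideal (𝓞 K))⁰) (s : ℝ) :
    S K (J : Ideal (𝓞 K)) s =
      (torsionOrder K : ℝ) * (Ideal.absNorm (J : Ideal (𝓞 K)) : ℝ) ^ (-s) *
        classZeta K (ClassGroup.mk0 J)⁻¹ s := by sorry

theorem summable_G_iff (J : (Ideal (𝓞 K))⁰) (s : ℝ) :
    Summable (fun a : (J : Ideal (𝓞 K)) => G K s (a : 𝓞 K)) ↔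
      Summable (fun I : {I : (Ideal (𝓞 K))⁰ // ClassGroup.mk0 I = (ClassGroup.mk0 J)⁻¹} =>
        (Ideal.absNorm (I.1 : Ideal (𝓞 K)) : ℝ) ^ (-s)) := by sorry

/-! ### (P3) (P4) (P5) (P4')  files `S14T/An2Trans.lean`, `S14T/An2Coset.lean` (helper3) -/

theorem summable_G {s : ℝ} (hs : 1 < s) : Summable (G K s) := by sorry

theorem S_asymp (J : Ideal (𝓞 K)) (hJ : J ≠ ⊥) :
    ∃ B : ℝ, ∀ s : ℝ, 1 < s → s ≤ 2 →
      |(Ideal.absNorm J : ℝ) ^ s * S K J s - S K ⊤ s| ≤ B := by sorry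

/-! ### (P6)  file `S14A/ClassLBound.lean` -/

theorem summable_absNorm_rpow_nz {s : ℝ} (hs : 1 < s) :
    Summable fun I : (Ideal (𝓞 K))⁰ => (Ideal.absNorm (I : Ideal (𝓞 K)) : ℝ) ^ (-s) := by sorry

theorem classL_eq_sum (χ : ClassGroup (𝓞 K) →* ℂˣ) {s : ℝ} (hs : 1 < s) :
    classL K χ s = ∑ C : ClassGroup (𝓞 K), (χ C : ℂ) * ((classZeta K C s : ℝ) : ℂ) := by sorry

/-- EXPORT (X1): the `L`-series of a nontrivial class group character is bounded on `(1,2]`. -/
theorem classL_bounded (χ : ClassGroup (𝓞 K) →* ℂˣ) (hχ : χ ≠ 1) :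
    ∃ B : ℝ, ∀ s : ℝ, 1 < s → s ≤ 2 → ‖classL K χ s‖ ≤ B := by sorry

end An2

/-! ### [S]  file `S14A/KummerSplit.lean` -/

/-- splitting in a Kummer extension without decomposition groups: if `η ≡ x^p mod v`, `v ∤ p η`,
then `p` distinct primes of `M = K(θ)`, `θ^p = η`, lie over `v`, each of norm `N v`. -/
theorem exists_split_primes {p : ℕ} (hp : p.Prime) (K M : Type*) [Field K] [NumberField K]
    [Field M] [NumberField M] [Algebra K M] (hdeg : Module.finrank K M = p)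
    (ζ η : 𝓞 K) (hζ : IsPrimitiveRoot ζ p) (θ : 𝓞 M)
    (hθ : θ ^ p = algebraMap (𝓞 K) (𝓞 M) η)
    (σ : M ≃ₐ[K] M) (hσ : σ (θ : M) = (algebraMap (𝓞 K) (𝓞 M) ζ : M) * (θ : M))
    (v : HeightOneSpectrum (𝓞 K)) (hv : (Ideal.absNorm v.asIdeal).Prime)
    (hvp : (p : 𝓞 K) ∉ v.asIdeal) (hvη : η ∉ v.asIdeal)
    (x : 𝓞 K) (hx : x ^ p - η ∈ v.asIdeal) :
    ∃ f : Fin p → HeightOneSpectrum (𝓞 M), Function.Injective f ∧
      ∀ j, Ideal.absNorm (f j).asIdeal = Ideal.absNorm v.asIdeal ∧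
        (f j).asIdeal.comap (algebraMap (𝓞 K) (𝓞 M)) = v.asIdeal := by sorry

/-! ### [M]  file `S14A/KummerField.lean` -/

/-- the Kummer extension `K(η^{1/p})` packaged with what `exists_split_primes` needs. -/
theorem exists_kummer_field {p : ℕ} (hp : p.Prime) (K : Type) [Field K] [NumberField K]
    (ζ η : 𝓞 K) (hζ : IsPrimitiveRoot ζ p) (hη : ¬ ∃ x : K, x ^ p = (η : K)) :
    ∃ (M : Type) (_ : Field M) (_ : NumberField M) (_ : Algebra K M) (θ : 𝓞 M)
      (σ : M ≃ₐ[K] M), Module.finrank K M = p ∧ θ ^ p = algebraMap (𝓞 K) (𝓞 M) η ∧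
        σ (θ : M) = (algebraMap (𝓞 K) (𝓞 M) ζ : M) * (θ : M) := by sorry

/-! ### [An3]  file `S14A/GenStatement.lean` -/

/-- root-of-unity Euler factor: for `ω^p = 1`, `∏_{j<p} (1 - ω^j x)` is `(1-x)^p` or `1 - x^p`. -/
theorem prod_one_sub_pow_mul {p : ℕ} (hp : p.Prime) (ω : ℂ) (hω : ω ^ p = 1) (x : ℂ) :
    ∏ j ∈ Finset.range p, (1 - ω ^ j * x) = if ω = 1 then (1 - x) ^ p else 1 - x ^ p := by sorry

/-- a proper subgroup of a finite abelian group is killed by a nontrivial character. -/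
theorem exists_char_of_ne_top {G : Type*} [CommGroup G] [Finite G] (H : Subgroup G)
    (hH : H ≠ ⊤) : ∃ χ : G →* ℂˣ, χ ≠ 1 ∧ ∀ h ∈ H, χ h = 1 := by sorry

/-- EXPORT (G-an): closes `GStatement` of `S14T/Plan.lean` via `gStatement_of_gen`. -/
theorem genStatement : Fermat.Agent.S14T.GenStatement := by sorry

end Fermat.Agent.S14A.Plan
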